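import Mathlib

/-!
# Apéry's numbers

`t n k = C(n, k) C(n + k, k)`, `c n k = ∑_{m ≤ n} 1/m³ + ∑_{m ≤ k} (-1)^(m-1) / (2 m³ t(n, m))`,
`a n = ∑_k t(n, k)²`, `b n = ∑_k t(n, k)² c(n, k)`.
-/

set_option autoImplicit false

open Finset

namespace Fermat.Agent.Cor.Apery

/-- `C(n, k) C(n + k, k)` -/
def t (n k : ℕ) : ℚ := (n.choose k : ℚ) * ((n + k).choose k : ℚ)

/-- `∑_{m ≤ n} 1/m³ + ∑_{m ≤ k} (-1)^(m-1) / (2 m³ C(n, m) C(n + m, m))` -/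
def c (n k : ℕ) : ℚ := ∑ m ∈ range n, 1 / ((m : ℚ) + 1) ^ 3 +
  ∑ m ∈ range k, (-1) ^ m / (2 * ((m : ℚ) + 1) ^ 3 * t n (m + 1))

/-- the denominators -/
def a (n : ℕ) : ℚ := ∑ k ∈ range (n + 1), t n k ^ 2

/-- the numerators -/
def b (n : ℕ) : ℚ := ∑ k ∈ range (n + 1), t n k ^ 2 * c n k

/-- Apéry's recursion. -/
def IsRec (u : ℕ → ℚ) : Prop := ∀ n : ℕ,
  ((n : ℚ) + 2) ^ 3 * u (n + 2) + ((n : ℚ) + 1) ^ 3 * u n =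
    (34 * ((n : ℚ) + 1) ^ 3 + 51 * ((n : ℚ) + 1) ^ 2 + 27 * ((n : ℚ) + 1) + 5) * u (n + 1)

/-- (R) -/
def RecStmt : Prop := IsRec a ∧ IsRec b

/-- (I) -/
def IntStmt : Prop := ∀ n : ℕ, ∃ z : ℤ, 2 * (Nat.lcmUpto n : ℚ) ^ 3 * b n = z

/-- (L) -/
def LimStmt : Prop := ∃ C : ℝ, ∀ n : ℕ, 1 ≤ n →
  0 < (a n : ℝ) * (∑' m : ℕ, 1 / ((m : ℝ) + 1) ^ 3) - b n ∧
    (a n : ℝ) * (∑' m : ℕ, 1 / ((m : ℝ) + 1) ^ 3) - b n ≤ C / a n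

end Fermat.Agent.Cor.Apery
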