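import Fermat.Agent.Corollaries.Apery.Defs

/-!
# Apéry's numbers: the denominators

`2 lcm(1, …, n)³ b n` is an integer. For `1 ≤ m ≤ n` the number `m C(n, m)` divides `lcm(1, …, n)`
(Leibniz' harmonic triangle), and `C(n + k, k) C(k, m) = C(n + m, m) C(n + k, k - m)`.
-/

set_option autoImplicit false

open Finset Nat

namespace Fermat.Agent.Cor.Apery

/-- the integers in `ℚ` -/
abbrev Zr : Subring ℚ := (Int.castRingHom ℚ).range

/-- the harmonic triangle of Leibniz: `g m l = 1 / ((m + 1) C(m + l + 1, m + 1))` -/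
def g (m l : ℕ) : ℚ := (m ! * l ! : ℚ) / (m + l + 1)!

theorem g_zero (m : ℕ) : g m 0 = 1 / (m + 1 : ℕ) := by
  have h : (m ! : ℚ) ≠ 0 := by exact_mod_cast m.factorial_ne_zero
  rw [g, add_zero, Nat.factorial_zero, Nat.factorial_succ]
  push_cast
  field_simp

theorem g_succ (m l : ℕ) : g m (l + 1) = g m l - g (m + 1) l := by
  have h1 : ((m + l + 1)! : ℚ) ≠ 0 := by exact_mod_cast Nat.factorial_ne_zero _
  rw [g, g, g, show m + (l + 1) + 1 = (m + l + 1) + 1 by ring,
    show m + 1 + l + 1 = (m + l + 1) + 1 by ring, Nat.factorial_succ (m + l + 1),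
    Nat.factorial_succ l, Nat.factorial_succ m]
  push_cast
  field_simp
  ring

theorem dvd_lcmUpto {m n : ℕ} (h1 : 1 ≤ m) (hn : m ≤ n) : m ∣ Nat.lcmUpto n :=
  Finset.dvd_lcm (f := id) (Finset.mem_Icc.mpr ⟨h1, hn⟩)

theorem div_mem {d D : ℕ} (hd : d ≠ 0) (h : d ∣ D) : (D : ℚ) * (1 / (d : ℚ)) ∈ Zr := by
  obtain ⟨e, rfl⟩ := h
  have h1 : (d : ℚ) ≠ 0 := by exact_mod_cast hd
  refine ⟨(e : ℤ), ?_⟩
  push_cast
  simp only [map_natCast]
  field_simp

theorem lcm_mul_g_mem (N : ℕ) : ∀ l m : ℕ, m + l + 1 ≤ N → (Nat.lcmUpto N : ℚ) * g m l ∈ Zr := by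
  intro l
  induction l with
  | zero =>
    intro m hm
    rw [g_zero]
    exact div_mem (by omega) (dvd_lcmUpto (by omega) (by omega))
  | succ l ih =>
    intro m hm
    rw [g_succ, mul_sub]
    exact sub_mem (ih m (by omega)) (ih (m + 1) (by omega))

/-- **Leibniz' triangle**: `lcm(1, …, N) / ((m + 1) C(n, m + 1))` is an integer for `m < n ≤ N`. -/
theorem lcm_div_mem {N n m : ℕ} (hm : m < n) (hn : n ≤ N) :
    (Nat.lcmUpto N : ℚ) * (1 / (((m : ℚ) + 1) * (n.choose (m + 1) : ℚ))) ∈ Zr := by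
  obtain ⟨l, rfl⟩ := Nat.exists_eq_add_of_lt hm
  have h := lcm_mul_g_mem N l m hn
  have h1 : 1 / (((m : ℚ) + 1) * ((m + l + 1).choose (m + 1) : ℚ)) = g m l := by
    have e' : ((m + l + 1).choose (m + 1) : ℚ) * l ! * (((m : ℚ) + 1) * m !) = ((m + l + 1)! : ℕ) := by
      rw [show m + l + 1 = l + (m + 1) by ring]
      have e2 := Nat.add_choose_mul_factorial_mul_factorial l (m + 1)
      rw [Nat.factorial_succ m] at e2
      exact_mod_cast e2
    have h2 : ((m + l + 1).choose (m + 1) : ℚ) ≠ 0 := by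
      exact_mod_cast (Nat.choose_pos (by omega)).ne'
    have h3 : ((m + l + 1)! : ℚ) ≠ 0 := by exact_mod_cast Nat.factorial_ne_zero _
    rw [g, div_eq_div_iff (by positivity) h3]
    linear_combination -e'
  rw [h1]
  exact h

/-- `C(n + k, k) C(k, m) = C(n + m, m) C(n + k, k - m)` -/
theorem choose_mul_choose {n k m : ℕ} (hm : m ≤ k) :
    (n + k).choose k * k.choose m = (n + m).choose m * (n + k).choose (k - m) := by
  obtain ⟨j, rfl⟩ := Nat.exists_eq_add_of_le hm
  rw [Nat.add_sub_cancel_left]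
  have e1 := Nat.add_choose_mul_factorial_mul_factorial n (m + j)
  have e2 := Nat.add_choose_mul_factorial_mul_factorial j m
  have e3 := Nat.add_choose_mul_factorial_mul_factorial n m
  have e4 := Nat.add_choose_mul_factorial_mul_factorial (n + m) j
  rw [add_comm j m] at e2
  rw [add_assoc n m j] at e4
  have h1 : 0 < (n)! * (m)! * (j)! := by positivity
  have h2 : 0 < (m + j)! := Nat.factorial_pos _
  have h3 : 0 < (n + m)! := Nat.factorial_pos _
  have f1 : ((n + (m + j)).choose (m + j) * (m + j).choose m) * ((n)! * (m)! * (j)!) =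
      (n + (m + j))! := by
    rw [← e1, ← e2]
    ring
  have f2 : ((n + m).choose m * (n + (m + j)).choose j) * ((n)! * (m)! * (j)!) =
      (n + (m + j))! := by
    rw [← e4, ← e3]
    ring
  exact Nat.eq_of_mul_eq_mul_right h1 (f1.trans f2.symm)

theorem t_mem (n k : ℕ) : t n k ∈ Zr := mul_mem (natCast_mem _ _) (natCast_mem _ _)

/-- The denominators of the first sum. -/
theorem inv_cube_mem {n m : ℕ} (hm : m < n) :
    (Nat.lcmUpto n : ℚ) ^ 3 * (1 / ((m : ℚ) + 1) ^ 3) ∈ Zr := by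
  have h := div_mem (d := m + 1) (D := Nat.lcmUpto n) (by omega)
    (dvd_lcmUpto (by omega) (by omega))
  push_cast at h
  have h3 := pow_mem h 3
  rwa [mul_pow, one_div, inv_pow, ← one_div] at h3

/-- The denominators of the second sum. -/
theorem term_mem {n k m : ℕ} (hm : m < k) (hk : k ≤ n) :
    (Nat.lcmUpto n : ℚ) ^ 3 * (t n k ^ 2 / (((m : ℚ) + 1) ^ 3 * t n (m + 1))) ∈ Zr := by
  have hA := div_mem (d := m + 1) (D := Nat.lcmUpto n) (by omega)
    (dvd_lcmUpto (by omega) (by omega))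
  push_cast at hA
  have hB := lcm_div_mem (N := n) (n := n) (m := m) (by omega) le_rfl
  have hC := lcm_div_mem (N := n) (n := k) (m := m) hm hk
  have hch : ((n + k).choose k : ℚ) * (k.choose (m + 1) : ℚ) =
      ((n + (m + 1)).choose (m + 1) : ℚ) * ((n + k).choose (k - (m + 1)) : ℚ) := by
    exact_mod_cast choose_mul_choose (n := n) (k := k) (m := m + 1) (by omega)
  have hu : (n.choose (m + 1) : ℚ) ≠ 0 := by exact_mod_cast (Nat.choose_pos (by omega)).ne'
  have hv : ((n + (m + 1)).choose (m + 1) : ℚ) ≠ 0 := by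
    exact_mod_cast (Nat.choose_pos (by omega)).ne'
  have hw : (k.choose (m + 1) : ℚ) ≠ 0 := by exact_mod_cast (Nat.choose_pos (by omega)).ne'
  have hm1 : (m : ℚ) + 1 ≠ 0 := by positivity
  have key : (Nat.lcmUpto n : ℚ) ^ 3 * (t n k ^ 2 / (((m : ℚ) + 1) ^ 3 * t n (m + 1))) =
      t n k * (n.choose k : ℚ) * ((n + k).choose (k - (m + 1)) : ℚ) *
        ((Nat.lcmUpto n : ℚ) * (1 / ((m : ℚ) + 1)) *
          ((Nat.lcmUpto n : ℚ) * (1 / (((m : ℚ) + 1) * (n.choose (m + 1) : ℚ)))) *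
          ((Nat.lcmUpto n : ℚ) * (1 / (((m : ℚ) + 1) * (k.choose (m + 1) : ℚ))))) := by
    rw [t, t]
    generalize (Nat.lcmUpto n : ℚ) = D at *
    generalize ((n + k).choose k : ℚ) = y at *
    generalize ((n + k).choose (k - (m + 1)) : ℚ) = r at *
    generalize ((n + (m + 1)).choose (m + 1) : ℚ) = v at *
    generalize (n.choose (m + 1) : ℚ) = u at *
    generalize (k.choose (m + 1) : ℚ) = w at *
    generalize (n.choose k : ℚ) = x at *
    field_simp
    linear_combination (D ^ 3 * x ^ 2 * y) * hch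
  rw [key]
  exact mul_mem (mul_mem (mul_mem (t_mem n k) (natCast_mem _ _)) (natCast_mem _ _))
    (mul_mem (mul_mem hA hB) hC)

/-- **(I)** `2 lcm(1, …, n)³ b n` is an integer. -/
theorem intStmt : IntStmt := by
  intro n
  have hmem : 2 * (Nat.lcmUpto n : ℚ) ^ 3 * b n ∈ Zr := by
    rw [b, Finset.mul_sum]
    refine sum_mem fun k hk => ?_
    have hkn : k ≤ n := by
      have := Finset.mem_range.mp hk
      omega
    have e : 2 * (Nat.lcmUpto n : ℚ) ^ 3 * (t n k ^ 2 * c n k) =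
        2 * t n k ^ 2 * (∑ m ∈ range n, (Nat.lcmUpto n : ℚ) ^ 3 * (1 / ((m : ℚ) + 1) ^ 3)) +
        ∑ m ∈ range k, (-1) ^ m *
          ((Nat.lcmUpto n : ℚ) ^ 3 * (t n k ^ 2 / (((m : ℚ) + 1) ^ 3 * t n (m + 1)))) := by
      rw [c, mul_add, mul_add, ← Finset.mul_sum, Finset.mul_sum (range k), Finset.mul_sum (range k)]
      congr 1
      · ring
      · refine Finset.sum_congr rfl fun m _ => ?_
        rw [mul_assoc 2 (((m : ℚ) + 1) ^ 3), ← div_div]
        ring
    rw [e]
    refine add_mem (mul_mem (mul_mem (natCast_mem _ 2) (pow_mem (t_mem n k) 2))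
      (sum_mem fun m hm => inv_cube_mem (Finset.mem_range.mp hm)))
      (sum_mem fun m hm => mul_mem (pow_mem (neg_mem (one_mem _)) m)
        (term_mem (Finset.mem_range.mp hm) hkn))
  obtain ⟨z, hz⟩ := hmem
  exact ⟨z, hz.symm⟩

end Fermat.Agent.Cor.Apery
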