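import Fermat.Agent.Corollaries.Apery.Rec
import Fermat.Agent.Corollaries.ZetaK.PNTFinal

/-!
# The irrationality of `ζ(3)` from the integrality and the approximation

`growth`: `22^n ≤ 8 a(n)` for `n ≥ 3`; `tendsto_lcm`: `lcm(1, …, n)³ / a(n) → 0` by the prime
number theorem (`e³ < 22`); `irrational_of`.
-/

set_option autoImplicit false

open Finset Filter Topology

namespace Fermat.Agent.Cor.Apery

theorem a_three : a 3 = 1445 := by
  norm_num [a, t, sum_range_succ, Nat.choose]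

theorem a_four : a 4 = 33001 := by
  norm_num [a, t, sum_range_succ, Nat.choose]

theorem a_pos_rat (n : ℕ) : 0 < a n := by
  rw [a]
  refine sum_pos' (fun k _ => sq_nonneg _) ⟨0, by simp, ?_⟩
  rw [t_zero]
  norm_num

theorem ratio (n : ℕ) : 22 * a (n + 3) ≤ a (n + 4) := by
  induction n with
  | zero =>
    rw [a_three, a_four]
    norm_num
  | succ n ih =>
    have h := isRec_a (n + 3)
    have hp := a_pos_rat (n + 4)
    have hn : (0 : ℚ) ≤ n := Nat.cast_nonneg n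
    rw [show n + 3 + 2 = n + 1 + 4 by ring, show n + 3 + 1 = n + 4 by ring] at h
    rw [show n + 1 + 3 = n + 4 by ring]
    push_cast at h
    generalize a (n + 1 + 4) = u at h ⊢
    generalize a (n + 4) = v at h ih hp ⊢
    generalize a (n + 3) = w at h ih
    generalize (n : ℚ) = x at h hn
    have h5 : 0 < (x + 3 + 2) ^ 3 := by positivity
    refine le_of_mul_le_mul_left ?_ h5
    have h6 : (x + 3 + 1) ^ 3 * w ≤ (x + 3 + 1) ^ 3 * (v / 22) :=
      mul_le_mul_of_nonneg_left (by linarith) (by positivity)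
    have h7 : 0 ≤ (34 * (x + 3 + 1) ^ 3 + 51 * (x + 3 + 1) ^ 2 + 27 * (x + 3 + 1) + 5 -
        (x + 3 + 1) ^ 3 / 22 - 22 * (x + 3 + 2) ^ 3) * v := by
      refine mul_nonneg ?_ hp.le
      have : 34 * (x + 3 + 1) ^ 3 + 51 * (x + 3 + 1) ^ 2 + 27 * (x + 3 + 1) + 5 -
        (x + 3 + 1) ^ 3 / 22 - 22 * (x + 3 + 2) ^ 3 =
          (34 - 1 / 22 - 22) * x ^ 3 + (34 * 12 - 12 / 22 - 22 * 15 + 51) * x ^ 2 +
            (34 * 48 - 48 / 22 - 22 * 75 + 51 * 8 + 27) * x +
            (34 * 64 - 64 / 22 - 22 * 125 + 51 * 16 + 27 * 4 + 5) := by ring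
      rw [this]
      have e1 : 0 ≤ x ^ 3 := by positivity
      have e2 : 0 ≤ x ^ 2 := by positivity
      nlinarith
    nlinarith

theorem growth {n : ℕ} (hn : 3 ≤ n) : (22 : ℚ) ^ n ≤ 8 * a n := by
  induction n, hn using Nat.le_induction with
  | base =>
    rw [a_three]
    norm_num
  | succ n hn ih =>
    obtain ⟨m, rfl⟩ := Nat.exists_eq_add_of_le hn
    have h := ratio m
    rw [show 3 + m + 1 = m + 4 by ring, pow_succ] at *
    rw [show 3 + m = m + 3 by ring] at ih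
    linarith

/-! ### The least common multiple -/

theorem exp_lt : Real.exp (61 / 20) < 43 / 2 := by
  have h1 : Real.exp (61 / 20) = Real.exp 1 ^ 3 * Real.exp (1 / 20) := by
    rw [← Real.exp_nat_mul, ← Real.exp_add]
    norm_num
  have h2 : Real.exp (1 / 20) ≤ 20 / 19 := by
    have h3 := Real.one_sub_le_exp_neg (1 / 20 : ℝ)
    rw [Real.exp_neg] at h3
    have h4 := Real.exp_pos (1 / 20 : ℝ)
    have h5 : (1 - 1 / 20 : ℝ) * Real.exp (1 / 20) ≤ 1 := by
      calc (1 - 1 / 20 : ℝ) * Real.exp (1 / 20) ≤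
            (Real.exp (1 / 20))⁻¹ * Real.exp (1 / 20) := mul_le_mul_of_nonneg_right h3 h4.le
        _ = 1 := inv_mul_cancel₀ h4.ne'
    linarith
  have h6 := Real.exp_one_lt_d9
  have h7 := Real.exp_pos (1 : ℝ)
  rw [h1]
  calc Real.exp 1 ^ 3 * Real.exp (1 / 20) ≤ (2.7182818286 : ℝ) ^ 3 * (20 / 19) := by
        gcongr
    _ < 43 / 2 := by norm_num

theorem eventually_lcm_le : ∀ᶠ n : ℕ in atTop, (Nat.lcmUpto n : ℝ) ^ 3 ≤ (43 / 2) ^ n := by
  have h1 := log_lcmUpto_div_tendsto.eventually_lt_const (show (1 : ℝ) < 61 / 60 by norm_num)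
  filter_upwards [h1, eventually_gt_atTop 0] with n hn hn0
  have hn1 : (0 : ℝ) < n := by exact_mod_cast hn0
  have hL : (0 : ℝ) < Nat.lcmUpto n := by exact_mod_cast Nat.lcmUpto_pos n
  rw [div_lt_iff₀ hn1] at hn
  have h2 : (Nat.lcmUpto n : ℝ) ≤ Real.exp (61 / 60 * n) := by
    rw [← Real.exp_log hL]
    exact Real.exp_le_exp.mpr hn.le
  calc (Nat.lcmUpto n : ℝ) ^ 3 ≤ Real.exp (61 / 60 * n) ^ 3 := pow_le_pow_left₀ hL.le h2 3
    _ = Real.exp (61 / 20) ^ n := by
        rw [← Real.exp_nat_mul, ← Real.exp_nat_mul]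
        congr 1
        push_cast
        ring
    _ ≤ (43 / 2) ^ n := pow_le_pow_left₀ (Real.exp_pos _).le exp_lt.le n

theorem tendsto_lcm : Tendsto (fun n : ℕ => (Nat.lcmUpto n : ℝ) ^ 3 / (a n : ℝ)) atTop (𝓝 0) := by
  have h1 : Tendsto (fun n : ℕ => 8 * (43 / 44 : ℝ) ^ n) atTop (𝓝 0) := by
    have := (tendsto_pow_atTop_nhds_zero_of_lt_one (r := (43 / 44 : ℝ)) (by norm_num)
      (by norm_num)).const_mul 8
    rwa [mul_zero] at this
  refine squeeze_zero' (Eventually.of_forall fun n => ?_) ?_ h1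
  · have := a_pos_rat n
    have h2 : (0 : ℝ) < a n := by exact_mod_cast this
    positivity
  · filter_upwards [eventually_lcm_le, eventually_ge_atTop 3] with n hn hn3
    have h2 : (0 : ℝ) < a n := by exact_mod_cast a_pos_rat n
    have h3 : (22 : ℝ) ^ n ≤ 8 * a n := by exact_mod_cast growth hn3
    rw [div_le_iff₀ h2]
    refine hn.trans ?_
    calc (43 / 2 : ℝ) ^ n = (43 / 44) ^ n * 22 ^ n := by
          rw [← mul_pow]
          norm_num
      _ ≤ (43 / 44) ^ n * (8 * a n) := mul_le_mul_of_nonneg_left h3 (by positivity)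
      _ = 8 * (43 / 44) ^ n * a n := by ring

/-! ### The irrationality -/

theorem exists_int_a (n : ℕ) : ∃ z : ℤ, a n = z := by
  refine ⟨∑ k ∈ range (n + 1), ((n.choose k : ℤ) * ((n + k).choose k : ℤ)) ^ 2, ?_⟩
  rw [a]
  push_cast
  rfl

/-- **The irrationality** from the integrality of `2 lcm(1, …, n)³ b(n)` and from the
approximation `0 < a(n) ζ(3) - b(n) ≤ C / a(n)`. -/
theorem irrational_of (hI : IntStmt) (hL : LimStmt) :
    Irrational (∑' m : ℕ, 1 / ((m : ℝ) + 1) ^ 3) := by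
  obtain ⟨C, hC⟩ := hL
  rintro ⟨r, hr⟩
  rw [← hr] at hC
  have hq : (0 : ℝ) < r.den := by exact_mod_cast r.den_pos
  -- the integer `X n`
  have key : ∀ n : ℕ, 1 ≤ n → 1 ≤ 2 * r.den * (Nat.lcmUpto n : ℝ) ^ 3 * (C / a n) := by
    intro n hn
    obtain ⟨h1, h2⟩ := hC n hn
    obtain ⟨z, hz⟩ := exists_int_a n
    obtain ⟨y, hy⟩ := hI n
    have hL0 : (0 : ℝ) < Nat.lcmUpto n := by exact_mod_cast Nat.lcmUpto_pos n
    have h3 : (2 * r.den * (Nat.lcmUpto n : ℝ) ^ 3 * ((a n : ℝ) * r - b n)) =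
        ((2 * (Nat.lcmUpto n : ℤ) ^ 3 * z * r.num - r.den * y : ℤ) : ℝ) := by
      have h4 : (2 * r.den * (Nat.lcmUpto n : ℚ) ^ 3 * (a n * r - b n)) =
          ((2 * (Nat.lcmUpto n : ℤ) ^ 3 * z * r.num - r.den * y : ℤ) : ℚ) := by
        have h5 : (r.den : ℚ) * r = r.num := by
          rw [mul_comm]
          exact Rat.mul_den_eq_num r
        push_cast
        rw [hz, ← hy]
        linear_combination (2 * (Nat.lcmUpto n : ℚ) ^ 3 * z) * h5
      have := congrArg (Rat.cast : ℚ → ℝ) h4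
      push_cast at this ⊢
      exact this
    have h5 : 0 < 2 * r.den * (Nat.lcmUpto n : ℝ) ^ 3 * ((a n : ℝ) * r - b n) := by positivity
    have h6 : 1 ≤ 2 * r.den * (Nat.lcmUpto n : ℝ) ^ 3 * ((a n : ℝ) * r - b n) := by
      rw [h3] at h5 ⊢
      exact_mod_cast Int.cast_pos.mp h5
    exact h6.trans (mul_le_mul_of_nonneg_left h2 (by positivity))
  have h7 : Tendsto (fun n : ℕ => 2 * r.den * (Nat.lcmUpto n : ℝ) ^ 3 * (C / a n)) atTop
      (𝓝 0) := by
    have := tendsto_lcm.const_mul (2 * r.den * C : ℝ)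
    rw [mul_zero] at this
    refine this.congr fun n => ?_
    ring
  have h8 := ge_of_tendsto h7 (eventually_atTop.mpr ⟨1, key⟩)
  linarith

end Fermat.Agent.Cor.Apery
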