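import Fermat.Agent.Corollaries.Apery.Defs

/-!
# The quotients `b n / a n` tend to `ζ(3)`

From Apéry's recursion: `b (n + 1) a n - b n a (n + 1) = 6 / (n + 1)³`, so the quotients
`b n / a n` are strictly increasing, with limit `ζ(3)`, and `0 < ζ(3) - b n / a n ≤ C / (a n)²`.
-/

set_option autoImplicit false

open Finset Filter Topology

namespace Fermat.Agent.Cor.Apery

/-- The partial sums of `ζ(3)`. -/
def harm (n : ℕ) : ℚ := ∑ m ∈ range n, 1 / ((m : ℚ) + 1) ^ 3

theorem t_zero_right (n : ℕ) : t n 0 = 1 := by simp [t]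

theorem t_nonneg (n k : ℕ) : 0 ≤ t n k := by unfold t; positivity

theorem t_le_succ (n k : ℕ) : t n k ≤ t (n + 1) k := by
  unfold t
  have h1 : (n.choose k : ℚ) ≤ ((n + 1).choose k : ℚ) := by
    exact_mod_cast Nat.choose_le_choose k (Nat.le_succ n)
  have h2 : ((n + k).choose k : ℚ) ≤ ((n + 1 + k).choose k : ℚ) := by
    exact_mod_cast Nat.choose_le_choose k (by omega)
  exact mul_le_mul h1 h2 (by positivity) (by positivity)

theorem a_le_succ (n : ℕ) : a n ≤ a (n + 1) := by
  unfold a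
  rw [Finset.sum_range_succ _ (n + 1)]
  have h : ∑ k ∈ range (n + 1), t n k ^ 2 ≤ ∑ k ∈ range (n + 1), t (n + 1) k ^ 2 :=
    Finset.sum_le_sum fun k _ => pow_le_pow_left₀ (t_nonneg n k) (t_le_succ n k) 2
  have h2 : 0 ≤ t (n + 1) (n + 1) ^ 2 := sq_nonneg _
  linarith

theorem a_mono : Monotone a := monotone_nat_of_le_succ a_le_succ

theorem one_le_a (n : ℕ) : 1 ≤ a n := by
  unfold a
  have h := Finset.single_le_sum (f := fun k => t n k ^ 2) (s := range (n + 1))
    (fun k _ => sq_nonneg _) (Finset.mem_range.mpr (Nat.succ_pos n))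
  simpa [t_zero_right] using h

theorem a_pos (n : ℕ) : 0 < a n := lt_of_lt_of_le one_pos (one_le_a n)

theorem a_zero : a 0 = 1 := by simp [a, t]

theorem b_zero : b 0 = 0 := by simp [b, c, t]

theorem a_one : a 1 = 5 := by norm_num [a, t, Finset.sum_range_succ]

theorem b_one : b 1 = 6 := by norm_num [b, c, t, Finset.sum_range_succ]

/-- The Casorati determinant. -/
theorem casorati (h : RecStmt) (n : ℕ) :
    b (n + 1) * a n - b n * a (n + 1) = 6 / ((n : ℚ) + 1) ^ 3 := by
  induction n with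
  | zero => rw [zero_add, a_zero, b_zero, a_one, b_one]; norm_num
  | succ n ih =>
    have ha := h.1 n
    have hb := h.2 n
    have hn1 : ((n : ℚ) + 1) ^ 3 ≠ 0 := by positivity
    have hn2 : ((n : ℚ) + 2) ^ 3 ≠ 0 := by positivity
    rw [eq_div_iff hn1] at ih
    push_cast
    rw [show (n : ℚ) + 1 + 1 = n + 2 by ring, eq_div_iff hn2]
    linear_combination a (n + 1) * hb - b (n + 1) * ha + ih

theorem harm_nonneg (n : ℕ) : 0 ≤ harm n := by unfold harm; positivity

theorem harm_mono : Monotone harm := by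
  refine monotone_nat_of_le_succ fun n => ?_
  unfold harm
  rw [Finset.sum_range_succ]
  have : (0 : ℚ) ≤ 1 / ((n : ℚ) + 1) ^ 3 := by positivity
  linarith

theorem succ_le_t {n j : ℕ} (hj : 1 ≤ j) (hjn : j ≤ n) : (n : ℚ) + 1 ≤ t n j := by
  unfold t
  have h1 : (1 : ℚ) ≤ (n.choose j : ℚ) := by exact_mod_cast Nat.choose_pos hjn
  have h2 : n + 1 ≤ (n + j).choose j := by
    have h3 : (n + j).choose j = (n + j).choose n := by
      rw [← Nat.choose_symm_add]
    rw [h3]
    calc n + 1 = (n + 1).choose n := by rw [Nat.choose_succ_self_right]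
      _ ≤ (n + j).choose n := Nat.choose_le_choose n (by omega)
  have h2' : ((n : ℚ) + 1) ≤ ((n + j).choose j : ℚ) := by exact_mod_cast h2
  calc (n : ℚ) + 1 = 1 * (n + 1) := (one_mul _).symm
    _ ≤ _ := mul_le_mul h1 h2' (by positivity) (by positivity)

theorem abs_c_sub_le {n k : ℕ} (hk : k ≤ n) : |c n k - harm n| ≤ harm n / ((n : ℚ) + 1) := by
  unfold c
  rw [show ∑ m ∈ range n, 1 / ((m : ℚ) + 1) ^ 3 = harm n from rfl, add_sub_cancel_left]
  refine (Finset.abs_sum_le_sum_abs _ _).trans ?_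
  calc ∑ m ∈ range k, |(-1) ^ m / (2 * ((m : ℚ) + 1) ^ 3 * t n (m + 1))|
      ≤ ∑ m ∈ range k, (1 / ((m : ℚ) + 1) ^ 3) / ((n : ℚ) + 1) := by
        refine Finset.sum_le_sum fun m hm => ?_
        have hm' := Finset.mem_range.mp hm
        have ht := succ_le_t (n := n) (j := m + 1) (by omega) (by omega)
        have hn : (0 : ℚ) < (n : ℚ) + 1 := by positivity
        have ht0 : 0 < t n (m + 1) := lt_of_lt_of_le hn ht
        rw [abs_div, abs_pow, abs_neg, abs_one, one_pow, abs_of_pos (by positivity), div_div]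
        apply one_div_le_one_div_of_le (by positivity)
        have h3 : (0 : ℚ) ≤ ((m : ℚ) + 1) ^ 3 := by positivity
        calc ((m : ℚ) + 1) ^ 3 * ((n : ℚ) + 1) ≤ ((m : ℚ) + 1) ^ 3 * t n (m + 1) :=
              mul_le_mul_of_nonneg_left ht h3
          _ ≤ 2 * ((m : ℚ) + 1) ^ 3 * t n (m + 1) := by
              have : 0 ≤ ((m : ℚ) + 1) ^ 3 * t n (m + 1) := by positivity
              linarith
    _ = harm k / ((n : ℚ) + 1) := by rw [← Finset.sum_div]; rfl
    _ ≤ harm n / ((n : ℚ) + 1) := by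
        have := harm_mono hk
        gcongr

theorem abs_b_sub_le (n : ℕ) : |b n - harm n * a n| ≤ harm n / ((n : ℚ) + 1) * a n := by
  unfold b a
  rw [Finset.mul_sum, Finset.mul_sum, ← Finset.sum_sub_distrib]
  refine (Finset.abs_sum_le_sum_abs _ _).trans (Finset.sum_le_sum fun k hk => ?_)
  have hk' := Finset.mem_range.mp hk
  have h := abs_c_sub_le (n := n) (k := k) (by omega)
  rw [show t n k ^ 2 * c n k - harm n * t n k ^ 2 = (c n k - harm n) * t n k ^ 2 by ring, abs_mul,
    abs_of_nonneg (sq_nonneg (t n k))]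
  exact mul_le_mul_of_nonneg_right h (sq_nonneg _)

/-- `ζ(3)` -/
noncomputable def zeta3 : ℝ := ∑' m : ℕ, 1 / ((m : ℝ) + 1) ^ 3

theorem summable_zeta3 : Summable fun m : ℕ => 1 / ((m : ℝ) + 1) ^ 3 := by
  have h := (summable_nat_add_iff 1).mpr (Real.summable_one_div_nat_pow.mpr (by norm_num : 1 < 3))
  simpa using h

theorem harm_cast (n : ℕ) : ((harm n : ℚ) : ℝ) = ∑ m ∈ range n, 1 / ((m : ℝ) + 1) ^ 3 := by
  unfold harm
  push_cast
  rfl

theorem tendsto_harm : Tendsto (fun n => ((harm n : ℚ) : ℝ)) atTop (𝓝 zeta3) := by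
  simp_rw [harm_cast]
  exact summable_zeta3.hasSum.tendsto_sum_nat

theorem harm_le_zeta3 (n : ℕ) : ((harm n : ℚ) : ℝ) ≤ zeta3 := by
  rw [harm_cast]
  exact summable_zeta3.sum_le_tsum _ fun m _ => by positivity

/-- **`b n / a n → ζ(3)`.** -/
theorem tendsto_quot : Tendsto (fun n => (b n : ℝ) / a n) atTop (𝓝 zeta3) := by
  have h1 : Tendsto (fun n : ℕ => zeta3 / ((n : ℝ) + 1)) atTop (𝓝 0) := by
    have := tendsto_one_div_add_atTop_nhds_zero_nat (𝕜 := ℝ)
    simpa [div_eq_mul_inv] using this.const_mul zeta3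
  have h2 : Tendsto (fun n => (b n : ℝ) / a n - harm n) atTop (𝓝 0) := by
    refine squeeze_zero_norm (fun n => ?_) h1
    have ha : (0 : ℝ) < a n := by exact_mod_cast a_pos n
    have h3 : |(b n : ℝ) - harm n * a n| ≤ harm n / ((n : ℝ) + 1) * a n := by
      exact_mod_cast abs_b_sub_le n
    rw [Real.norm_eq_abs, show (b n : ℝ) / a n - harm n = ((b n : ℝ) - harm n * a n) / a n by
      field_simp, abs_div, abs_of_pos ha, div_le_iff₀ ha]
    refine h3.trans (mul_le_mul_of_nonneg_right ?_ ha.le)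
    have := harm_le_zeta3 n
    gcongr
  simpa using h2.add tendsto_harm

theorem quot_succ_sub (h : RecStmt) (n : ℕ) :
    (b (n + 1) : ℝ) / a (n + 1) - b n / a n = 6 / ((n : ℝ) + 1) ^ 3 / (a n * a (n + 1)) := by
  have h1 : (b (n + 1) : ℝ) * a n - b n * a (n + 1) = 6 / ((n : ℝ) + 1) ^ 3 := by
    have h0 := congrArg (fun x : ℚ => (x : ℝ)) (casorati h n)
    push_cast at h0
    exact h0
  have ha : (a n : ℝ) ≠ 0 := by exact_mod_cast (a_pos n).ne'
  have ha' : (a (n + 1) : ℝ) ≠ 0 := by exact_mod_cast (a_pos (n + 1)).ne'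
  rw [← h1]
  field_simp

theorem strictMono_quot (h : RecStmt) : StrictMono fun n => (b n : ℝ) / a n := by
  refine strictMono_nat_of_lt_succ fun n => ?_
  have h1 := quot_succ_sub h n
  have ha : (0 : ℝ) < a n := by exact_mod_cast a_pos n
  have ha' : (0 : ℝ) < a (n + 1) := by exact_mod_cast a_pos (n + 1)
  have h2 : (0 : ℝ) < 6 / ((n : ℝ) + 1) ^ 3 / (a n * a (n + 1)) := by positivity
  linarith

theorem quot_sub_le (h : RecStmt) (n d : ℕ) :
    (b (n + d) : ℝ) / a (n + d) - b n / a n ≤ 6 / (a n : ℝ) ^ 2 * (harm (n + d) - harm n) := by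
  induction d with
  | zero => simp
  | succ d ih =>
    have h1 := quot_succ_sub h (n + d)
    have ha : (0 : ℝ) < a n := by exact_mod_cast a_pos n
    have ha1 : (a n : ℝ) ≤ a (n + d) := by exact_mod_cast a_mono (Nat.le_add_right n d)
    have ha2 : (a n : ℝ) ≤ a (n + d + 1) := by exact_mod_cast a_mono (by omega : n ≤ n + d + 1)
    have h2 : ((harm (n + d + 1) : ℚ) : ℝ) = harm (n + d) + 1 / (((n + d : ℕ) : ℝ) + 1) ^ 3 := by
      rw [harm_cast, harm_cast, Finset.sum_range_succ]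
    have h3 : 6 / (((n + d : ℕ) : ℝ) + 1) ^ 3 / (a (n + d) * a (n + d + 1))
        ≤ 6 / (a n : ℝ) ^ 2 * (1 / (((n + d : ℕ) : ℝ) + 1) ^ 3) := by
      rw [div_div, div_mul_div_comm, mul_one]
      apply div_le_div_of_nonneg_left (by norm_num) (by positivity)
      rw [mul_comm ((a n : ℝ) ^ 2)]
      apply mul_le_mul_of_nonneg_left _ (by positivity)
      rw [pow_two]
      exact mul_le_mul ha1 ha2 ha.le (ha.le.trans ha1)
    rw [← add_assoc, h2]
    linarith [h1, h3, ih]

/-- **The distance of `b n / a n` to `ζ(3)`.** -/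
theorem limStmt (h : RecStmt) : LimStmt := by
  refine ⟨6 * zeta3, fun n _ => ?_⟩
  change 0 < (a n : ℝ) * zeta3 - b n ∧ (a n : ℝ) * zeta3 - b n ≤ 6 * zeta3 / a n
  have ha : (0 : ℝ) < a n := by exact_mod_cast a_pos n
  have h1 : (b n : ℝ) / a n < zeta3 :=
    ((strictMono_quot h) (Nat.lt_succ_self n)).trans_le
      ((strictMono_quot h).monotone.ge_of_tendsto tendsto_quot (n + 1))
  have h2 : zeta3 - b n / a n ≤ 6 / (a n : ℝ) ^ 2 * (zeta3 - harm n) := by
    have h3 : Tendsto (fun d => (b (n + d) : ℝ) / a (n + d) - b n / a n) atTop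
        (𝓝 (zeta3 - b n / a n)) := by
      have := (tendsto_add_atTop_iff_nat (f := fun m => (b m : ℝ) / a m) n).mpr tendsto_quot
      simp_rw [add_comm _ n] at this
      exact this.sub_const _
    have h4 : Tendsto (fun d => 6 / (a n : ℝ) ^ 2 * ((harm (n + d) : ℝ) - harm n)) atTop
        (𝓝 (6 / (a n : ℝ) ^ 2 * (zeta3 - harm n))) := by
      have := (tendsto_add_atTop_iff_nat (f := fun m => ((harm m : ℚ) : ℝ)) n).mpr tendsto_harm
      simp_rw [add_comm _ n] at this
      exact (this.sub_const _).const_mul _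
    exact le_of_tendsto_of_tendsto' h3 h4 fun d => quot_sub_le h n d
  have h5 : (0 : ℝ) ≤ harm n := by exact_mod_cast harm_nonneg n
  constructor
  · rw [div_lt_iff₀ ha] at h1
    linarith
  · have h6 : (a n : ℝ) * zeta3 - b n = a n * (zeta3 - b n / a n) := by
      field_simp
    rw [h6]
    calc (a n : ℝ) * (zeta3 - b n / a n) ≤ a n * (6 / (a n : ℝ) ^ 2 * (zeta3 - harm n)) :=
          mul_le_mul_of_nonneg_left h2 ha.le
      _ ≤ a n * (6 / (a n : ℝ) ^ 2 * zeta3) := by
          apply mul_le_mul_of_nonneg_left _ ha.le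
          apply mul_le_mul_of_nonneg_left _ (by positivity)
          linarith
      _ = 6 * zeta3 / a n := by
          field_simp

end Fermat.Agent.Cor.Apery
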