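import Mathlib

/-!
# Irrationality measures from a sequence of rational approximations

If `0 < q(n) ≤ e^(σ n)`, `|q(n) x - p(n)| ≤ e^(-τ n)` for large `n` and consecutive fractions
`p(n) / q(n)` are different, then `x` is not `LiouvilleWith μ` for any `μ > 1 + σ / τ`.
-/

set_option autoImplicit false

open Filter Topology Real

namespace Fermat.Agent.Cor.Apery

theorem lower_bound {x σ τ : ℝ} {q p : ℕ → ℤ} (hσ : 0 ≤ σ) (hτ : 0 < τ) {n₀ : ℕ}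
    (hq : ∀ n, n₀ ≤ n → 0 < q n) (hne : ∀ n, n₀ ≤ n → p n * q (n + 1) ≠ p (n + 1) * q n)
    (h1 : ∀ n, n₀ ≤ n → (q n : ℝ) ≤ exp (σ * n))
    (h2 : ∀ n, n₀ ≤ n → |q n * x - p n| ≤ exp (-(τ * n))) {N : ℕ} (hN : 1 ≤ N)
    (hNn : n₀ ≤ ⌈log (2 * N) / τ⌉₊) (M : ℤ) :
    (2 * exp (2 * σ) * 2 ^ (σ / τ))⁻¹ * (N : ℝ) ^ (-(1 + σ / τ)) ≤ |x - M / N| := by
  set n := ⌈log (2 * N) / τ⌉₊ with hn
  have hN0 : (0 : ℝ) < N := by exact_mod_cast hN
  have hN1 : (1 : ℝ) ≤ N := by exact_mod_cast hN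
  have hlog : 0 ≤ log (2 * N) := Real.log_nonneg (by linarith)
  have hn1 : log (2 * N) / τ ≤ n := Nat.le_ceil _
  have hn2 : (n : ℝ) < log (2 * N) / τ + 1 := Nat.ceil_lt_add_one (by positivity)
  -- one of the two fractions is different from `M / N`
  obtain ⟨m, hm0, hnm, hmn, hm⟩ : ∃ m : ℕ, n₀ ≤ m ∧ n ≤ m ∧ m ≤ n + 1 ∧ N * p m - M * q m ≠ 0 := by
    by_cases h : N * p n - M * q n = 0
    · refine ⟨n + 1, by omega, by omega, le_rfl, fun h' => hne n hNn ?_⟩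
      have hqn := hq n hNn
      have e1 : (N : ℤ) * p n = M * q n := by linarith
      have e2 : (N : ℤ) * p (n + 1) = M * q (n + 1) := by linarith
      have hNz : (N : ℤ) ≠ 0 := by positivity
      refine mul_left_cancel₀ hNz ?_
      calc (N : ℤ) * (p n * q (n + 1)) = (N * p n) * q (n + 1) := by ring
        _ = (M * q (n + 1)) * q n := by rw [e1]; ring
        _ = (N : ℤ) * (p (n + 1) * q n) := by rw [← e2]; ring
    · exact ⟨n, hNn, le_rfl, by omega, h⟩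
  have hqm : (0 : ℝ) < q m := by exact_mod_cast hq m hm0
  have hmr : (n : ℝ) ≤ m := by exact_mod_cast hnm
  have hmr' : (m : ℝ) ≤ n + 1 := by exact_mod_cast hmn
  have h3 : exp (-(τ * m)) ≤ (2 * (N : ℝ))⁻¹ := by
    rw [Real.exp_neg]
    refine inv_anti₀ (by positivity) ?_
    rw [← Real.exp_log (show (0 : ℝ) < 2 * N by positivity)]
    refine Real.exp_le_exp.mpr ?_
    rw [div_le_iff₀ hτ] at hn1
    nlinarith
  have h4 : (q m : ℝ) ≤ exp (2 * σ) * (2 * (N : ℝ)) ^ (σ / τ) := by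
    refine (h1 m hm0).trans ?_
    rw [Real.rpow_def_of_pos (show (0 : ℝ) < 2 * N by positivity), ← Real.exp_add]
    refine Real.exp_le_exp.mpr ?_
    have h5 : (m : ℝ) ≤ log (2 * N) / τ + 2 := by linarith
    calc σ * m ≤ σ * (log (2 * N) / τ + 2) := mul_le_mul_of_nonneg_left h5 hσ
      _ = 2 * σ + log (2 * N) * (σ / τ) := by ring
  have h5 : (1 : ℝ) ≤ |(N : ℝ) * p m - M * q m| := by
    have h6 : 1 ≤ |N * p m - M * q m| := Int.one_le_abs hm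
    exact_mod_cast h6
  have h6 : |(N : ℝ) * p m - M * q m| ≤ N * exp (-(τ * m)) + q m * (N * |x - M / N|) := by
    have h7 : (N : ℝ) * p m - M * q m = -(N * (q m * x - p m)) + q m * (N * (x - M / N)) := by
      field_simp
      ring
    rw [h7]
    refine (abs_add_le _ _).trans ?_
    rw [abs_neg, abs_mul, abs_mul, abs_mul, abs_of_pos hN0, abs_of_pos hqm]
    exact add_le_add (mul_le_mul_of_nonneg_left (h2 m hm0) hN0.le) le_rfl
  have h7 : (N : ℝ) * exp (-(τ * m)) ≤ 1 / 2 := by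
    calc (N : ℝ) * exp (-(τ * m)) ≤ N * (2 * (N : ℝ))⁻¹ := mul_le_mul_of_nonneg_left h3 hN0.le
      _ = 1 / 2 := by field_simp
  have h8 : 1 / 2 ≤ q m * (N * |x - M / N|) := by linarith
  have h9 : (N : ℝ) ^ (-(1 + σ / τ)) = ((N : ℝ) * (N : ℝ) ^ (σ / τ))⁻¹ := by
    rw [Real.rpow_neg hN0.le, Real.rpow_add hN0, Real.rpow_one]
  have h10 : (2 * (N : ℝ)) ^ (σ / τ) = 2 ^ (σ / τ) * (N : ℝ) ^ (σ / τ) :=
    Real.mul_rpow (by norm_num) hN0.le
  have hA : (0 : ℝ) < 2 ^ (σ / τ) := Real.rpow_pos_of_pos two_pos _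
  have hB : (0 : ℝ) < (N : ℝ) ^ (σ / τ) := Real.rpow_pos_of_pos hN0 _
  have h11 : 1 / 2 ≤ exp (2 * σ) * (2 ^ (σ / τ) * (N : ℝ) ^ (σ / τ)) * (N * |x - M / N|) := by
    rw [← h10]
    exact h8.trans (mul_le_mul_of_nonneg_right h4 (by positivity))
  rw [h9, ← mul_inv, inv_le_iff_one_le_mul₀ (by positivity)]
  calc (1 : ℝ) = 2 * (1 / 2) := by norm_num
    _ ≤ 2 * (exp (2 * σ) * (2 ^ (σ / τ) * (N : ℝ) ^ (σ / τ)) * (N * |x - M / N|)) := by linarith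
    _ = |x - M / N| * (2 * exp (2 * σ) * 2 ^ (σ / τ) * (N * (N : ℝ) ^ (σ / τ))) := by ring

theorem not_liouvilleWith {x σ τ : ℝ} {q p : ℕ → ℤ} (hσ : 0 ≤ σ) (hτ : 0 < τ) {n₀ : ℕ}
    (hq : ∀ n, n₀ ≤ n → 0 < q n) (hne : ∀ n, n₀ ≤ n → p n * q (n + 1) ≠ p (n + 1) * q n)
    (h1 : ∀ n, n₀ ≤ n → (q n : ℝ) ≤ exp (σ * n))
    (h2 : ∀ n, n₀ ≤ n → |q n * x - p n| ≤ exp (-(τ * n))) {μ : ℝ} (hμ : 1 + σ / τ < μ) :
    ¬ LiouvilleWith μ x := by
  rintro ⟨C, hC⟩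
  set c : ℝ := (2 * exp (2 * σ) * 2 ^ (σ / τ))⁻¹ with hc
  have hc0 : 0 < c := by positivity
  -- for large `N` the bound `C / N ^ μ` is smaller than `c / N ^ (1 + σ / τ)`
  have e1 : ∀ᶠ N : ℕ in atTop, C < c * (N : ℝ) ^ (μ - (1 + σ / τ)) := by
    have h3 : Tendsto (fun N : ℕ => c * (N : ℝ) ^ (μ - (1 + σ / τ))) atTop atTop :=
      Tendsto.const_mul_atTop hc0 ((tendsto_rpow_atTop (by linarith)).comp
        tendsto_natCast_atTop_atTop)
    exact h3.eventually_gt_atTop C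
  have e2 : ∀ᶠ N : ℕ in atTop, n₀ ≤ ⌈log (2 * N) / τ⌉₊ := by
    have h3 : Tendsto (fun N : ℕ => log (2 * N) / τ) atTop atTop := by
      refine Tendsto.atTop_div_const hτ (Real.tendsto_log_atTop.comp ?_)
      exact Tendsto.const_mul_atTop two_pos tendsto_natCast_atTop_atTop
    filter_upwards [h3.eventually_ge_atTop (n₀ : ℝ)] with N hN
    exact_mod_cast hN.trans (Nat.le_ceil _)
  obtain ⟨N, ⟨M, -, hM⟩, hN1, hN2, hN3⟩ :=
    (hC.and_eventually (e1.and (e2.and (eventually_ge_atTop 1)))).exists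
  have h3 := lower_bound hσ hτ hq hne h1 h2 hN3 hN2 M
  have hN0 : (0 : ℝ) < N := by exact_mod_cast hN3
  have h4 : c * (N : ℝ) ^ (-(1 + σ / τ)) < C / N ^ μ := h3.trans_lt hM
  rw [lt_div_iff₀ (Real.rpow_pos_of_pos hN0 _), mul_assoc, ← Real.rpow_add hN0,
    show -(1 + σ / τ) + μ = μ - (1 + σ / τ) by ring] at h4
  exact lt_asymm h4 hN1

end Fermat.Agent.Cor.Apery
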