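import Fermat.Agent.Corollaries.Apery.Growth
import Fermat.Agent.Corollaries.Apery.Denom
import Fermat.Agent.Corollaries.Apery.Lim

/-!
# Apéry's theorem: `ζ(3)` is irrational

R. Apéry, 1978. Apéry's numbers `a(n)`, `b(n)` satisfy `0 < a(n) ζ(3) - b(n) ≤ C / a(n)`
(`limStmt`, from the recursion `recStmt`), `a(n)` and `2 lcm(1, …, n)³ b(n)` are integers
(`intStmt`), `a(n) ≥ 22^n / 8` (`growth`), and `lcm(1, …, n)³ = e^(3n + o(n))` is smaller by the
prime number theorem (`tendsto_lcm`).
-/

set_option autoImplicit false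

open Finset Filter Topology

namespace Fermat.Agent.Cor.Apery

/-- The value of the Riemann zeta function at `3`. -/
theorem riemannZeta_three :
    riemannZeta 3 = ((∑' m : ℕ, 1 / ((m : ℝ) + 1) ^ 3 : ℝ) : ℂ) := by
  rw [zeta_eq_tsum_one_div_nat_add_one_cpow (by norm_num), Complex.ofReal_tsum]
  refine tsum_congr fun n => ?_
  push_cast
  norm_num

/-- **Apéry's theorem** (1978): `1 + 1/2³ + 1/3³ + …` is irrational. -/
theorem irrational_tsum : Irrational (∑' m : ℕ, 1 / ((m : ℝ) + 1) ^ 3) :=
  irrational_of intStmt (limStmt recStmt)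

/-- **Apéry's theorem** (1978): `ζ(3)` is irrational. -/
theorem irrational_zeta_three : Irrational (riemannZeta 3).re := by
  rw [riemannZeta_three, Complex.ofReal_re]
  exact irrational_tsum

/-- **Apéry's theorem** (1978): `ζ(3)` is not a rational number. -/
theorem riemannZeta_three_ne_ratCast (q : ℚ) : riemannZeta 3 ≠ q := by
  intro h
  refine irrational_zeta_three ⟨q, ?_⟩
  rw [h, ← Complex.ofReal_ratCast, Complex.ofReal_re]

end Fermat.Agent.Cor.Apery
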