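import Fermat.Agent.Corollaries.Apery.Main
import Fermat.Agent.Corollaries.Apery.Liou

/-!
# The irrationality measure of `ζ(3)`

* `tendsto_ratio`: `a(n + 1) / a(n) → (1 + √2)⁴`;
* `not_liouvilleWith_zeta_three`: `ζ(3)` is not approximable to any order greater than
  `1 + (4 log (1 + √2) + 3) / (4 log (1 + √2) - 3) = 13.4178…` (Apéry);
* `not_liouvilleWith_num`: in particular not to the order `13.42`.
-/

set_option autoImplicit false

open Finset Filter Topology Real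

namespace Fermat.Agent.Cor.Apery

noncomputable section

/-- `(1 + √2)⁴ = 17 + 12 √2` -/
def al : ℝ := 17 + 12 * √2

theorem al_eq : al = (1 + √2) ^ 4 := by
  have h : √2 ^ 2 = 2 := Real.sq_sqrt (by norm_num)
  have h2 : (1 + √2) ^ 4 = 1 + 4 * √2 + 6 * √2 ^ 2 + 4 * √2 * √2 ^ 2 + (√2 ^ 2) ^ 2 := by ring
  rw [al, h2, h]
  ring

theorem sqrt_two_gt : (1.41421 : ℝ) < √2 := by
  rw [Real.lt_sqrt (by norm_num)]
  norm_num

theorem al_gt : (33.97 : ℝ) < al := by
  have := sqrt_two_gt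
  rw [al]
  linarith

theorem al_pos : 0 < al := lt_trans (by norm_num) al_gt

theorem al_inv : al = 34 - al⁻¹ := by
  have h : √2 ^ 2 = 2 := Real.sq_sqrt (by norm_num)
  have h1 : al⁻¹ = 17 - 12 * √2 := by
    refine inv_eq_of_mul_eq_one_right ?_
    rw [al]
    linear_combination -144 * h
  rw [h1, al]
  ring

/-- `a(n + 1) / a(n)` -/
def rho (n : ℕ) : ℝ := (a (n + 1) : ℝ) / a n

theorem a_pos_real (n : ℕ) : (0 : ℝ) < a n := by exact_mod_cast a_pos n

theorem rho_pos (n : ℕ) : 0 < rho n := div_pos (a_pos_real _) (a_pos_real _)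

theorem rho_ge (n : ℕ) : 22 ≤ rho (n + 3) := by
  rw [rho, le_div_iff₀ (a_pos_real _)]
  exact_mod_cast ratio n

theorem rho_rec (n : ℕ) : ((n : ℝ) + 2) ^ 3 * rho (n + 1) =
    (34 * ((n : ℝ) + 1) ^ 3 + 51 * ((n : ℝ) + 1) ^ 2 + 27 * ((n : ℝ) + 1) + 5) -
      ((n : ℝ) + 1) ^ 3 * (rho n)⁻¹ := by
  have h := isRec_a n
  have h' : ((n : ℝ) + 2) ^ 3 * a (n + 2) + ((n : ℝ) + 1) ^ 3 * a n =
    (34 * ((n : ℝ) + 1) ^ 3 + 51 * ((n : ℝ) + 1) ^ 2 + 27 * ((n : ℝ) + 1) + 5) * a (n + 1) := by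
    exact_mod_cast h
  have h0 := (a_pos_real n).ne'
  have h1 := (a_pos_real (n + 1)).ne'
  rw [rho, rho, inv_div]
  field_simp
  linear_combination h'

/-- the contraction -/
theorem abs_rho_succ (n : ℕ) :
    |rho (n + 4) - al| ≤ 76 / ((n : ℝ) + 5) + |rho (n + 3) - al| / 2 := by
  have h := rho_rec (n + 3)
  push_cast at h
  rw [show (n : ℝ) + 3 + 2 = n + 5 by ring, show (n : ℝ) + 3 + 1 = n + 4 by ring,
    show n + 3 + 1 = n + 4 by ring] at h
  have hn : (0 : ℝ) ≤ n := Nat.cast_nonneg n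
  have hr := rho_ge n
  have ha := al_gt
  have hai := al_inv
  have hal0 := al_pos
  generalize rho (n + 4) = u at h ⊢
  generalize rho (n + 3) = r at h hr ⊢
  generalize (n : ℝ) = x at h hn ⊢
  generalize al = α at ha hai hal0 ⊢
  have hr0 : 0 < r := by linarith
  have hx5 : 0 < x + 5 := by linarith
  have hx5' : 0 < (x + 5) ^ 3 := by positivity
  have hri : r⁻¹ ≤ 1 / 22 := by
    rw [one_div]
    exact inv_anti₀ (by norm_num) hr
  have hri0 : 0 < r⁻¹ := inv_pos.mpr hr0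
  -- `u - α = -δ + (1/α - 1/r) + δ' / r`
  set δ : ℝ := 34 - (34 * (x + 4) ^ 3 + 51 * (x + 4) ^ 2 + 27 * (x + 4) + 5) / (x + 5) ^ 3 with hδ
  set δ' : ℝ := 1 - (x + 4) ^ 3 / (x + 5) ^ 3 with hδ'
  have e1 : u - α = -δ + (α⁻¹ - r⁻¹) + δ' * r⁻¹ := by
    have h1 : u = (34 * (x + 4) ^ 3 + 51 * (x + 4) ^ 2 + 27 * (x + 4) + 5) / (x + 5) ^ 3 -
        (x + 4) ^ 3 / (x + 5) ^ 3 * r⁻¹ := by
      rw [eq_comm, ← sub_eq_zero]
      field_simp
      field_simp at h
      linear_combination -h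
    rw [h1, hδ, hδ']
    linear_combination -hai
  have d0 : 0 ≤ δ := by
    rw [hδ, sub_nonneg, div_le_iff₀ hx5']
    nlinarith [mul_nonneg hn hn]
  have d1 : δ ≤ 75 / (x + 5) := by
    have h1 : δ = (51 * (x + 4) ^ 2 + 75 * (x + 4) + 29) / (x + 5) ^ 3 := by
      rw [hδ, eq_div_iff hx5'.ne', sub_mul, div_mul_cancel₀ _ hx5'.ne']
      ring
    rw [h1, div_le_div_iff₀ hx5' hx5]
    nlinarith [mul_nonneg hn hn, mul_nonneg (mul_nonneg hn hn) hn]
  have d0' : 0 ≤ δ' := by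
    rw [hδ', sub_nonneg, div_le_iff₀ hx5']
    nlinarith [mul_nonneg hn hn]
  have d1' : δ' ≤ 3 / (x + 5) := by
    have h1 : δ' = (3 * (x + 4) ^ 2 + 3 * (x + 4) + 1) / (x + 5) ^ 3 := by
      rw [hδ', eq_div_iff hx5'.ne', sub_mul, div_mul_cancel₀ _ hx5'.ne']
      ring
    rw [h1, div_le_div_iff₀ hx5' hx5]
    nlinarith [mul_nonneg hn hn, mul_nonneg (mul_nonneg hn hn) hn]
  have e2 : |α⁻¹ - r⁻¹| ≤ |r - α| / 2 := by
    have h1 : α⁻¹ - r⁻¹ = (r - α) * (α⁻¹ * r⁻¹) := by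
      field_simp
    have h2 : α⁻¹ ≤ 1 := inv_le_one_of_one_le₀ (by linarith)
    rw [h1, abs_mul, abs_of_pos (mul_pos (inv_pos.mpr hal0) hri0), div_eq_mul_inv]
    refine mul_le_mul_of_nonneg_left ?_ (abs_nonneg _)
    calc α⁻¹ * r⁻¹ ≤ 1 * (1 / 22) := mul_le_mul h2 hri hri0.le zero_le_one
      _ ≤ 2⁻¹ := by norm_num
  have e3 : |-δ + δ' * r⁻¹| ≤ 76 / (x + 5) := by
    have h1 : δ' * r⁻¹ ≤ 3 / (x + 5) * (1 / 22) :=
      mul_le_mul d1' hri hri0.le (by positivity)
    have h2 : 0 ≤ δ' * r⁻¹ := mul_nonneg d0' hri0.le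
    have h3 : 76 / (x + 5) = 75 / (x + 5) + 1 / (x + 5) := by ring
    have h4 : 3 / (x + 5) * (1 / 22) ≤ 1 / (x + 5) := by
      rw [div_mul_div_comm, div_le_div_iff₀ (by positivity) hx5]
      linarith
    have h5 : 0 ≤ 75 / (x + 5) := by positivity
    rw [abs_le]
    constructor
    · have : 0 ≤ 1 / (x + 5) := by positivity
      linarith
    · linarith
  calc |u - α| = |(-δ + δ' * r⁻¹) + (α⁻¹ - r⁻¹)| := by
        rw [e1]
        congr 1
        ring
    _ ≤ |-δ + δ' * r⁻¹| + |α⁻¹ - r⁻¹| := abs_add_le _ _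
    _ ≤ _ := add_le_add e3 e2

theorem tendsto_ratio : Tendsto rho atTop (𝓝 al) := by
  -- `|rho n - al| ≤ K / (n + 2)` for `n ≥ 3`
  obtain ⟨K, hK, hK3⟩ : ∃ K : ℝ, 304 ≤ K ∧ |rho 3 - al| ≤ K / 5 :=
    ⟨max 304 (5 * |rho 3 - al|), le_max_left _ _, by
      have := le_max_right 304 (5 * |rho 3 - al|)
      linarith⟩
  have key : ∀ n : ℕ, |rho (n + 3) - al| ≤ K / ((n : ℝ) + 5) := by
    intro n
    induction n with
    | zero => simpa using hK3
    | succ n ih =>
      have h := abs_rho_succ n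
      have hn : (0 : ℝ) ≤ n := Nat.cast_nonneg n
      rw [show n + 1 + 3 = n + 4 by ring]
      push_cast
      refine h.trans ?_
      have h1 : |rho (n + 3) - al| / 2 ≤ K / (n + 5) / 2 := by linarith
      refine (add_le_add_right h1 _).trans ?_
      rw [show (n : ℝ) + 1 + 5 = n + 6 by ring]
      have h2 : 76 / ((n : ℝ) + 5) ≤ K / 4 / (n + 5) :=
        div_le_div_of_nonneg_right (by linarith) (by positivity)
      have h3 : K / 4 / ((n : ℝ) + 5) + K / (n + 5) / 2 = (3 * K / 4) / (n + 5) := by ring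
      have h4 : (3 * K / 4) / ((n : ℝ) + 5) ≤ K / (n + 6) := by
        rw [div_le_div_iff₀ (by positivity) (by positivity)]
        nlinarith
      linarith
  have h1 : Tendsto (fun n : ℕ => K / ((n : ℝ) + 5)) atTop (𝓝 0) :=
    tendsto_const_nhds.div_atTop (tendsto_atTop_add_const_right _ _ tendsto_natCast_atTop_atTop)
  have h2 : Tendsto (fun n => rho (n + 3)) atTop (𝓝 al) := by
    rw [tendsto_iff_norm_sub_tendsto_zero]
    exact squeeze_zero (fun _ => norm_nonneg _) key h1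
  exact (tendsto_add_atTop_iff_nat 3).mp h2

theorem log_a (n : ℕ) : log (a n) = ∑ i ∈ range n, log (rho i) := by
  induction n with
  | zero => simp [a_zero]
  | succ n ih =>
    rw [sum_range_succ, ← ih, rho, log_div (a_pos_real _).ne' (a_pos_real _).ne']
    ring

theorem tendsto_log_a : Tendsto (fun n : ℕ => log (a n) / n) atTop (𝓝 (log al)) := by
  have h := ((continuousAt_log al_pos.ne').tendsto.comp tendsto_ratio).cesaro
  refine h.congr fun n => ?_
  rw [log_a, div_eq_inv_mul]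
  rfl

/-! ### The linear forms -/

theorem log_al : log al = 4 * log (1 + √2) := by
  rw [al_eq, Real.log_pow]
  norm_num

/-- the denominators of the linear forms -/
def dd (n : ℕ) : ℝ := 2 * (Nat.lcmUpto n : ℝ) ^ 3

theorem dd_pos (n : ℕ) : 0 < dd n := by
  have : (0 : ℝ) < Nat.lcmUpto n := by exact_mod_cast Nat.lcmUpto_pos n
  unfold dd
  positivity

theorem tendsto_log_dd : Tendsto (fun n : ℕ => log (dd n) / n) atTop (𝓝 3) := by
  have h1 : Tendsto (fun n : ℕ => log 2 / (n : ℝ)) atTop (𝓝 0) :=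
    tendsto_const_nhds.div_atTop tendsto_natCast_atTop_atTop
  have h2 := h1.add (log_lcmUpto_div_tendsto.const_mul 3)
  rw [zero_add, mul_one] at h2
  refine h2.congr fun n => ?_
  have hL : (0 : ℝ) < Nat.lcmUpto n := by exact_mod_cast Nat.lcmUpto_pos n
  rw [dd, log_mul two_ne_zero (by positivity), Real.log_pow]
  push_cast
  ring

theorem eventually_le_exp {f : ℕ → ℝ} (hf : ∀ n, 0 < f n) {l σ : ℝ}
    (h : Tendsto (fun n : ℕ => log (f n) / n) atTop (𝓝 l)) (hσ : l < σ) :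
    ∀ᶠ n : ℕ in atTop, f n ≤ exp (σ * n) := by
  filter_upwards [h.eventually_lt_const hσ, eventually_gt_atTop 0] with n hn hn0
  have hn1 : (0 : ℝ) < n := by exact_mod_cast hn0
  rw [div_lt_iff₀ hn1] at hn
  rw [← Real.exp_log (hf n)]
  exact Real.exp_le_exp.mpr hn.le

theorem three_lt_log_al : 3 < log al := by
  rw [Real.lt_log_iff_exp_lt al_pos]
  have h1 : Real.exp 3 = Real.exp 1 ^ 3 := by
    rw [← Real.exp_nat_mul]
    norm_num
  have h2 := Real.exp_one_lt_d9
  rw [h1]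
  calc Real.exp 1 ^ 3 ≤ (2.7182818286 : ℝ) ^ 3 := by gcongr
    _ < 33.97 := by norm_num
    _ < al := al_gt

/-- **The irrationality measure of `ζ(3)`** (Apéry 1978): for every
`μ > 1 + (4 log (1 + √2) + 3) / (4 log (1 + √2) - 3) = 13.4178…` the number `ζ(3)` is not
approximable to the order `μ`. -/
theorem not_liouvilleWith_zeta_three {μ : ℝ}
    (hμ : 1 + (4 * log (1 + √2) + 3) / (4 * log (1 + √2) - 3) < μ) :
    ¬ LiouvilleWith μ (riemannZeta 3).re := by
  rw [riemannZeta_three, Complex.ofReal_re]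
  rw [← log_al] at hμ
  set L := log al with hL
  have hL3 : 3 < L := three_lt_log_al
  -- the exponents
  obtain ⟨ε, hε, hε1, hε2⟩ : ∃ ε : ℝ, 0 < ε ∧ 3 + ε < L ∧ 1 + (L + 3 + ε) / (L - 3 - ε) < μ := by
    have h1 : Tendsto (fun ε : ℝ => 1 + (L + 3 + ε) / (L - 3 - ε)) (𝓝[>] 0)
        (𝓝 (1 + (L + 3 + 0) / (L - 3 - 0))) := by
      have h2 : ContinuousAt (fun ε : ℝ => 1 + (L + 3 + ε) / (L - 3 - ε)) 0 := by
        refine ContinuousAt.add continuousAt_const (ContinuousAt.div ?_ ?_ ?_)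
        · exact continuousAt_const.add continuousAt_id
        · exact continuousAt_const.sub continuousAt_id
        · rw [sub_zero]
          exact (by linarith : L - 3 ≠ 0)
      exact h2.tendsto.mono_left nhdsWithin_le_nhds
    rw [add_zero, sub_zero] at h1
    have h3 : ∀ᶠ ε : ℝ in 𝓝[>] 0, 3 + ε < L := by
      have : Tendsto (fun ε : ℝ => 3 + ε) (𝓝[>] 0) (𝓝 (3 + 0)) :=
        (tendsto_const_nhds.add tendsto_id).mono_left nhdsWithin_le_nhds
      rw [add_zero] at this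
      exact this.eventually_lt_const hL3
    have h6 : ∀ᶠ ε : ℝ in 𝓝[>] 0, 0 < ε := self_mem_nhdsWithin
    obtain ⟨ε, hε, h4, h5⟩ := (h6.and ((h1.eventually_lt_const hμ).and h3)).exists
    exact ⟨ε, hε, h5, h4⟩
  obtain ⟨C, hC⟩ := limStmt recStmt
  choose z hz using exists_int_a
  choose y hy using intStmt
  have hC0 : 0 < C := by
    have h1 := hC 1 le_rfl
    have h2 := h1.1.trans_le h1.2
    exact (div_pos_iff_of_pos_right (a_pos_real 1)).mp h2
  -- growth of the denominators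
  have g1 : Tendsto (fun n : ℕ => log (dd n * a n) / n) atTop (𝓝 (3 + L)) := by
    refine (tendsto_log_dd.add tendsto_log_a).congr fun n => ?_
    rw [log_mul (dd_pos n).ne' (a_pos_real n).ne']
    ring
  have g2 : Tendsto (fun n : ℕ => log (dd n * (C / a n)) / n) atTop (𝓝 (3 - L)) := by
    have h1 : Tendsto (fun n : ℕ => log C / (n : ℝ)) atTop (𝓝 0) :=
      tendsto_const_nhds.div_atTop tendsto_natCast_atTop_atTop
    have h2 := (tendsto_log_dd.sub tendsto_log_a).add h1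
    rw [add_zero] at h2
    refine h2.congr fun n => ?_
    rw [log_mul (dd_pos n).ne' (div_pos hC0 (a_pos_real n)).ne',
      log_div hC0.ne' (a_pos_real n).ne']
    ring
  have g1' := eventually_le_exp (fun n => mul_pos (dd_pos n) (a_pos_real n)) g1
    (σ := L + 3 + ε) (by linarith)
  have g2' := eventually_le_exp (fun n => mul_pos (dd_pos n) (div_pos hC0 (a_pos_real n))) g2
    (σ := -(L - 3 - ε)) (by linarith)
  obtain ⟨n₀, hn₀⟩ := eventually_atTop.mp (g1'.and (g2'.and (eventually_ge_atTop 1)))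
  obtain ⟨q, hqr⟩ : ∃ q : ℕ → ℤ, ∀ n, (q n : ℝ) = dd n * a n := by
    refine ⟨fun n => 2 * (Nat.lcmUpto n : ℤ) ^ 3 * z n, fun n => ?_⟩
    have : (a n : ℝ) = z n := by rw [hz n]; push_cast; rfl
    rw [this, dd]
    push_cast
    ring
  have hpr : ∀ n, ((y n : ℤ) : ℝ) = dd n * b n := by
    intro n
    have := congrArg (Rat.cast : ℚ → ℝ) (hy n)
    push_cast at this
    rw [← this, dd]
  refine not_liouvilleWith (q := q) (p := y)
    (σ := L + 3 + ε) (τ := L - 3 - ε) (n₀ := n₀) (by linarith) (by linarith) ?_ ?_ ?_ ?_ hε2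
  · intro n _
    have h1 : (0 : ℝ) < q n := by
      rw [hqr]
      exact mul_pos (dd_pos n) (a_pos_real n)
    exact_mod_cast h1
  · intro n _ h
    have h1 := congrArg (Int.cast : ℤ → ℝ) h
    rw [Int.cast_mul, Int.cast_mul, hqr, hqr, hpr, hpr] at h1
    have h2 : ((b (n + 1) : ℝ) * a n - b n * a (n + 1)) = 6 / ((n : ℝ) + 1) ^ 3 := by
      have h5 := congrArg (Rat.cast : ℚ → ℝ) (casorati recStmt n)
      push_cast at h5
      exact h5
    have h3 : (0 : ℝ) < 6 / ((n : ℝ) + 1) ^ 3 := by positivity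
    have h4 : dd n * dd (n + 1) * ((b (n + 1) : ℝ) * a n - b n * a (n + 1)) = 0 := by
      linear_combination -h1
    rw [h2] at h4
    exact (mul_pos (mul_pos (dd_pos n) (dd_pos (n + 1))) h3).ne' h4
  · intro n hn
    rw [hqr]
    exact (hn₀ n hn).1
  · intro n hn
    obtain ⟨-, h2, h1⟩ := hn₀ n hn
    rw [hqr, hpr]
    obtain ⟨h3, h4⟩ := hC n h1
    have h5 : dd n * (a n : ℝ) * (∑' m : ℕ, 1 / ((m : ℝ) + 1) ^ 3) - dd n * b n =
        dd n * ((a n : ℝ) * (∑' m : ℕ, 1 / ((m : ℝ) + 1) ^ 3) - b n) := by ring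
    rw [h5, abs_of_pos (mul_pos (dd_pos n) h3)]
    refine (mul_le_mul_of_nonneg_left h4 (dd_pos n).le).trans (h2.trans_eq ?_)
    congr 1
    ring

/-- The exponent is less than `13.42`. -/
theorem exponent_lt : 1 + (4 * log (1 + √2) + 3) / (4 * log (1 + √2) - 3) < 13.42 := by
  rw [← log_al]
  have h3 : 3.5254 < log al := by
    rw [Real.lt_log_iff_exp_lt al_pos]
    have h1 : Real.exp 3.5254 = Real.exp 1 ^ 3 * Real.exp 0.5254 := by
      rw [← Real.exp_nat_mul, ← Real.exp_add]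
      norm_num
    have h2 := Real.exp_one_lt_d9
    have h4 : Real.exp 0.5254 ≤ 1.691136 := by
      refine (Real.exp_bound' (x := 0.5254) (by norm_num) (by norm_num) (n := 9)
        (by norm_num)).trans ?_
      norm_num [Finset.sum_range_succ, Nat.factorial]
    rw [h1]
    calc Real.exp 1 ^ 3 * Real.exp 0.5254 ≤ (2.7182818286 : ℝ) ^ 3 * 1.691136 := by gcongr
      _ < 33.97 := by norm_num
      _ < al := al_gt
  have h5 : 0 < log al - 3 := by linarith
  have h6 : (log al + 3) / (log al - 3) < 12.42 := by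
    rw [div_lt_iff₀ h5]
    linarith
  linarith

/-- `ζ(3)` is not approximable to the order `13.42`. -/
theorem not_liouvilleWith_num : ¬ LiouvilleWith 13.42 (riemannZeta 3).re :=
  not_liouvilleWith_zeta_three exponent_lt

/-- `ζ(3)` is not a Liouville number. -/
theorem not_liouville_zeta_three : ¬ Liouville (riemannZeta 3).re := fun h =>
  not_liouvilleWith_num (h.liouvilleWith _)

end

end Fermat.Agent.Cor.Apery
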