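import Fermat.Agent.Corollaries.Apery.Rec

/-!
# Apéry's numbers for `ζ(2) = π² / 6`

`v n k = C(n, k)² C(n + k, k)`,
`c n k = 2 ∑_{m ≤ n} (-1)^(m-1) / m² + (-1)^n ∑_{m ≤ k} (-1)^(m-1) / (m² C(n, m) C(n + m, m))`,
`a n = ∑_k v(n, k)`, `b n = ∑_k v(n, k) c(n, k)`.
-/

set_option autoImplicit false

open Finset
open Fermat.Agent.Cor.Apery (t)

namespace Fermat.Agent.Cor.AperyPi

/-- `C(n, k)² C(n + k, k)` -/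
def v (n k : ℕ) : ℚ := (n.choose k : ℚ) * t n k

/-- `2 ∑_{m ≤ n} (-1)^(m-1) / m² + (-1)^n ∑_{m ≤ k} (-1)^(m-1) / (m² C(n, m) C(n + m, m))` -/
def c (n k : ℕ) : ℚ := 2 * ∑ m ∈ range n, (-1) ^ m / ((m : ℚ) + 1) ^ 2 +
  (-1) ^ n * ∑ m ∈ range k, (-1) ^ m / (((m : ℚ) + 1) ^ 2 * t n (m + 1))

/-- the denominators -/
def a (n : ℕ) : ℚ := ∑ k ∈ range (n + 1), v n k

/-- the numerators -/
def b (n : ℕ) : ℚ := ∑ k ∈ range (n + 1), v n k * c n k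

/-- Apéry's recursion. -/
def IsRec (u : ℕ → ℚ) : Prop := ∀ n : ℕ,
  ((n : ℚ) + 2) ^ 2 * u (n + 2) =
    (11 * ((n : ℚ) + 1) ^ 2 + 11 * ((n : ℚ) + 1) + 3) * u (n + 1) + ((n : ℚ) + 1) ^ 2 * u n

/-- (R) -/
def RecStmt : Prop := IsRec a ∧ IsRec b

/-- (I) -/
def IntStmt : Prop := ∀ n : ℕ, ∃ z : ℤ, (Nat.lcmUpto n : ℚ) ^ 2 * b n = z

/-- (L) -/
def LimStmt : Prop := ∃ C : ℝ, 0 < C ∧ ∀ n : ℕ, |(a n : ℝ) * (Real.pi ^ 2 / 6) - b n| ≤ C / a n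

end Fermat.Agent.Cor.AperyPi
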