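import Fermat.Agent.Corollaries.Apery.PiDefs
import Fermat.Agent.Corollaries.Apery.Denom

/-!
# Apéry's numbers for `ζ(2)`: the denominators

`lcm(1, …, n)² b n` is an integer: `C(n, k)² C(n + k, k) / (m² C(n, m) C(n + m, m))` is equal to
`C(n, k)² C(n + k, k - m) / (m C(n, m) · m C(k, m))`, and `m C(n, m)`, `m C(k, m)` divide
`lcm(1, …, n)`.
-/

set_option autoImplicit false

open Finset Nat
open Fermat.Agent.Cor.Apery (t Zr div_mem dvd_lcmUpto lcm_div_mem choose_mul_choose t_mem)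

namespace Fermat.Agent.Cor.AperyPi

theorem v_mem (n k : ℕ) : v n k ∈ Zr := mul_mem (natCast_mem _ _) (t_mem n k)

/-- The denominators of the first sum. -/
theorem inv_sq_mem {n m : ℕ} (hm : m < n) :
    (Nat.lcmUpto n : ℚ) ^ 2 * (1 / ((m : ℚ) + 1) ^ 2) ∈ Zr := by
  have h := div_mem (d := m + 1) (D := Nat.lcmUpto n) (by omega)
    (dvd_lcmUpto (by omega) (by omega))
  push_cast at h
  have h3 := pow_mem h 2
  rwa [mul_pow, one_div, inv_pow, ← one_div] at h3

/-- The denominators of the second sum. -/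
theorem term_mem {n k m : ℕ} (hm : m < k) (hk : k ≤ n) :
    (Nat.lcmUpto n : ℚ) ^ 2 * (v n k / (((m : ℚ) + 1) ^ 2 * t n (m + 1))) ∈ Zr := by
  have hB := lcm_div_mem (N := n) (n := n) (m := m) (by omega) le_rfl
  have hC := lcm_div_mem (N := n) (n := k) (m := m) hm hk
  have hch : ((n + k).choose k : ℚ) * (k.choose (m + 1) : ℚ) =
      ((n + (m + 1)).choose (m + 1) : ℚ) * ((n + k).choose (k - (m + 1)) : ℚ) := by
    exact_mod_cast choose_mul_choose (n := n) (k := k) (m := m + 1) (by omega)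
  have hu : (n.choose (m + 1) : ℚ) ≠ 0 := by exact_mod_cast (Nat.choose_pos (by omega)).ne'
  have hv : ((n + (m + 1)).choose (m + 1) : ℚ) ≠ 0 := by
    exact_mod_cast (Nat.choose_pos (by omega)).ne'
  have hw : (k.choose (m + 1) : ℚ) ≠ 0 := by exact_mod_cast (Nat.choose_pos (by omega)).ne'
  have hm1 : (m : ℚ) + 1 ≠ 0 := by positivity
  have key : (Nat.lcmUpto n : ℚ) ^ 2 * (v n k / (((m : ℚ) + 1) ^ 2 * t n (m + 1))) =
      (n.choose k : ℚ) * (n.choose k : ℚ) * ((n + k).choose (k - (m + 1)) : ℚ) *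
        (((Nat.lcmUpto n : ℚ) * (1 / (((m : ℚ) + 1) * (n.choose (m + 1) : ℚ)))) *
          ((Nat.lcmUpto n : ℚ) * (1 / (((m : ℚ) + 1) * (k.choose (m + 1) : ℚ))))) := by
    rw [v, t, t]
    generalize (Nat.lcmUpto n : ℚ) = D at *
    generalize ((n + k).choose k : ℚ) = y at *
    generalize ((n + k).choose (k - (m + 1)) : ℚ) = r at *
    generalize ((n + (m + 1)).choose (m + 1) : ℚ) = v at *
    generalize (n.choose (m + 1) : ℚ) = u at *
    generalize (k.choose (m + 1) : ℚ) = w at *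
    generalize (n.choose k : ℚ) = x at *
    field_simp
    linear_combination (D ^ 2 * x ^ 2) * hch
  rw [key]
  exact mul_mem (mul_mem (mul_mem (natCast_mem _ _) (natCast_mem _ _)) (natCast_mem _ _))
    (mul_mem hB hC)

/-- **(I)** `lcm(1, …, n)² b n` is an integer. -/
theorem intStmt : IntStmt := by
  intro n
  have hmem : (Nat.lcmUpto n : ℚ) ^ 2 * b n ∈ Zr := by
    rw [b, Finset.mul_sum]
    refine sum_mem fun k hk => ?_
    have hkn : k ≤ n := by
      have := Finset.mem_range.mp hk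
      omega
    have e : (Nat.lcmUpto n : ℚ) ^ 2 * (v n k * c n k) =
        2 * v n k * (∑ m ∈ range n, (-1) ^ m * ((Nat.lcmUpto n : ℚ) ^ 2 * (1 / ((m : ℚ) + 1) ^ 2))) +
        (-1) ^ n * ∑ m ∈ range k, (-1) ^ m *
          ((Nat.lcmUpto n : ℚ) ^ 2 * (v n k / (((m : ℚ) + 1) ^ 2 * t n (m + 1)))) := by
      rw [c, mul_add, mul_add]
      congr 1
      · rw [Finset.mul_sum, Finset.mul_sum, Finset.mul_sum, Finset.mul_sum]
        refine Finset.sum_congr rfl fun m _ => ?_
        ring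
      · rw [Finset.mul_sum, Finset.mul_sum, Finset.mul_sum, Finset.mul_sum]
        refine Finset.sum_congr rfl fun m _ => ?_
        ring
    rw [e]
    refine add_mem (mul_mem (mul_mem (natCast_mem _ 2) (v_mem n k))
      (sum_mem fun m hm => mul_mem (pow_mem (neg_mem (one_mem _)) m)
        (inv_sq_mem (Finset.mem_range.mp hm)))) ?_
    exact mul_mem (pow_mem (neg_mem (one_mem _)) n)
      (sum_mem fun m hm => mul_mem (pow_mem (neg_mem (one_mem _)) m)
        (term_mem (Finset.mem_range.mp hm) hkn))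
  obtain ⟨z, hz⟩ := hmem
  exact ⟨z, hz.symm⟩

end Fermat.Agent.Cor.AperyPi
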