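import Fermat.Agent.Corollaries.Apery.PiRec
import Fermat.Agent.Corollaries.Apery.Liou
import Fermat.Agent.Corollaries.ZetaK.PNTFinal

/-!
# The irrationality measures of `π²` and of `π`, from integrality and approximation

* `tendsto_rho`: `a(n + 1) / a(n) → ((1 + √5) / 2)⁵ = (11 + 5 √5) / 2`;
* `measure_of`: the exponent `1 + (5 log φ + 2) / (5 log φ - 2) = 11.8507…` for `π² / 6`;
* `liouvilleWith_sq`: from `x` to `x²`.
-/

set_option autoImplicit false

open Finset Filter Topology Real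
open Fermat.Agent.Cor.Apery (not_liouvilleWith)

namespace Fermat.Agent.Cor.AperyPi

noncomputable section

/-- `(11 + 5 √5) / 2` -/
def be : ℝ := (11 + 5 * √5) / 2

theorem sqrt_five_sq : √5 ^ 2 = 5 := Real.sq_sqrt (by norm_num)

theorem sqrt_five_gt : (2.236067 : ℝ) < √5 := by
  rw [Real.lt_sqrt (by norm_num)]
  norm_num

theorem be_gt : (11.09 : ℝ) < be := by
  have := sqrt_five_gt
  rw [be]
  linarith

theorem be_pos : 0 < be := lt_trans (by norm_num) be_gt

theorem be_eq : be = goldenRatio ^ 5 := by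
  have h := sqrt_five_sq
  have h2 : goldenRatio ^ 5 = (1 + 5 * √5 + 10 * √5 ^ 2 + 10 * √5 * √5 ^ 2 + 5 * (√5 ^ 2) ^ 2 +
      √5 * (√5 ^ 2) ^ 2) / 32 := by
    rw [goldenRatio]
    ring
  rw [h2, h, be]
  ring

theorem be_inv : be = 11 + be⁻¹ := by
  have h := sqrt_five_sq
  have h1 : be⁻¹ = (5 * √5 - 11) / 2 := by
    refine inv_eq_of_mul_eq_one_right ?_
    rw [be]
    linear_combination (25 / 4) * h
  rw [h1, be]
  ring

theorem v_nonneg (n k : ℕ) : 0 ≤ v n k := by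
  unfold v Fermat.Agent.Cor.Apery.t
  positivity

theorem a_posR (n : ℕ) : (0 : ℝ) < a n := by
  have h : 0 < a n := by
    rw [a]
    refine sum_pos' (fun k _ => v_nonneg n k) ⟨0, by simp, ?_⟩
    rw [v_zero]
    norm_num
  exact_mod_cast h

/-- `a(n + 1) / a(n)` -/
def rho (n : ℕ) : ℝ := (a (n + 1) : ℝ) / a n

theorem rho_pos (n : ℕ) : 0 < rho n := div_pos (a_posR _) (a_posR _)

theorem rho_rec (n : ℕ) : ((n : ℝ) + 2) ^ 2 * rho (n + 1) =
    (11 * ((n : ℝ) + 1) ^ 2 + 11 * ((n : ℝ) + 1) + 3) + ((n : ℝ) + 1) ^ 2 * (rho n)⁻¹ := by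
  have h := isRec_a n
  have h' : ((n : ℝ) + 2) ^ 2 * a (n + 2) =
    (11 * ((n : ℝ) + 1) ^ 2 + 11 * ((n : ℝ) + 1) + 3) * a (n + 1) + ((n : ℝ) + 1) ^ 2 * a n := by
    exact_mod_cast h
  have h0 := (a_posR n).ne'
  have h1 := (a_posR (n + 1)).ne'
  rw [rho, rho, inv_div]
  field_simp
  linear_combination h'

theorem rho_ge (n : ℕ) : 6 ≤ rho (n + 1) := by
  have h := rho_rec n
  have h0 := rho_pos n
  have hn : (0 : ℝ) ≤ n := Nat.cast_nonneg n
  have h1 : 0 ≤ ((n : ℝ) + 1) ^ 2 * (rho n)⁻¹ := by positivity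
  have h2 : 0 < ((n : ℝ) + 2) ^ 2 := by positivity
  refine le_of_mul_le_mul_left ?_ h2
  nlinarith

/-- the contraction -/
theorem abs_rho_succ (n : ℕ) :
    |rho (n + 2) - be| ≤ 12 / ((n : ℝ) + 3) + |rho (n + 1) - be| / 2 := by
  have h := rho_rec (n + 1)
  push_cast at h
  rw [show (n : ℝ) + 1 + 2 = n + 3 by ring, show (n : ℝ) + 1 + 1 = n + 2 by ring,
    show n + 1 + 1 = n + 2 by ring] at h
  have hn : (0 : ℝ) ≤ n := Nat.cast_nonneg n
  have hr := rho_ge n
  have ha := be_gt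
  have hai := be_inv
  have hal0 := be_pos
  generalize rho (n + 2) = u at h ⊢
  generalize rho (n + 1) = r at h hr ⊢
  generalize (n : ℝ) = x at h hn ⊢
  generalize be = α at ha hai hal0 ⊢
  have hr0 : 0 < r := by linarith
  have hx5 : 0 < x + 3 := by linarith
  have hx5' : 0 < (x + 3) ^ 2 := by positivity
  have hri : r⁻¹ ≤ 1 / 6 := by
    rw [one_div]
    exact inv_anti₀ (by norm_num) hr
  have hri0 : 0 < r⁻¹ := inv_pos.mpr hr0
  set δ : ℝ := 11 - (11 * (x + 2) ^ 2 + 11 * (x + 2) + 3) / (x + 3) ^ 2 with hδ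
  set δ' : ℝ := 1 - (x + 2) ^ 2 / (x + 3) ^ 2 with hδ'
  have e1 : u - α = -δ - δ' * r⁻¹ + (r⁻¹ - α⁻¹) := by
    have h1 : u = (11 * (x + 2) ^ 2 + 11 * (x + 2) + 3) / (x + 3) ^ 2 +
        (x + 2) ^ 2 / (x + 3) ^ 2 * r⁻¹ := by
      rw [eq_comm, ← sub_eq_zero]
      field_simp
      field_simp at h
      linear_combination -h
    rw [h1, hδ, hδ']
    linear_combination -hai
  have d0 : 0 ≤ δ := by
    rw [hδ, sub_nonneg, div_le_iff₀ hx5']
    nlinarith [mul_nonneg hn hn]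
  have d1 : δ ≤ 11 / (x + 3) := by
    have h1 : δ = (11 * (x + 2) + 8) / (x + 3) ^ 2 := by
      rw [hδ, eq_div_iff hx5'.ne', sub_mul, div_mul_cancel₀ _ hx5'.ne']
      ring
    rw [h1, div_le_div_iff₀ hx5' hx5]
    nlinarith [mul_nonneg hn hn]
  have d0' : 0 ≤ δ' := by
    rw [hδ', sub_nonneg, div_le_iff₀ hx5']
    nlinarith [mul_nonneg hn hn]
  have d1' : δ' ≤ 2 / (x + 3) := by
    have h1 : δ' = (2 * (x + 2) + 1) / (x + 3) ^ 2 := by
      rw [hδ', eq_div_iff hx5'.ne', sub_mul, div_mul_cancel₀ _ hx5'.ne']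
      ring
    rw [h1, div_le_div_iff₀ hx5' hx5]
    nlinarith [mul_nonneg hn hn]
  have e2 : |r⁻¹ - α⁻¹| ≤ |r - α| / 2 := by
    have h1 : r⁻¹ - α⁻¹ = -((r - α) * (α⁻¹ * r⁻¹)) := by
      field_simp
      ring
    have h2 : α⁻¹ ≤ 1 := inv_le_one_of_one_le₀ (by linarith)
    rw [h1, abs_neg, abs_mul, abs_of_pos (mul_pos (inv_pos.mpr hal0) hri0), div_eq_mul_inv]
    refine mul_le_mul_of_nonneg_left ?_ (abs_nonneg _)
    calc α⁻¹ * r⁻¹ ≤ 1 * (1 / 6) := mul_le_mul h2 hri hri0.le zero_le_one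
      _ ≤ 2⁻¹ := by norm_num
  have e3 : |-δ - δ' * r⁻¹| ≤ 12 / (x + 3) := by
    have h1 : δ' * r⁻¹ ≤ 2 / (x + 3) * (1 / 6) :=
      mul_le_mul d1' hri hri0.le (by positivity)
    have h2 : 0 ≤ δ' * r⁻¹ := mul_nonneg d0' hri0.le
    have h3 : 12 / (x + 3) = 11 / (x + 3) + 1 / (x + 3) := by ring
    have h4 : 2 / (x + 3) * (1 / 6) ≤ 1 / (x + 3) := by
      rw [div_mul_div_comm, div_le_div_iff₀ (by positivity) hx5]
      linarith
    have h5 : 0 ≤ 12 / (x + 3) := by positivity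
    rw [abs_le]
    constructor <;> linarith
  calc |u - α| = |(-δ - δ' * r⁻¹) + (r⁻¹ - α⁻¹)| := by rw [e1]
    _ ≤ |-δ - δ' * r⁻¹| + |r⁻¹ - α⁻¹| := abs_add_le _ _
    _ ≤ _ := add_le_add e3 e2

theorem tendsto_rho : Tendsto rho atTop (𝓝 be) := by
  obtain ⟨K, hK, hK3⟩ : ∃ K : ℝ, 48 ≤ K ∧ |rho 1 - be| ≤ K / 2 :=
    ⟨max 48 (2 * |rho 1 - be|), le_max_left _ _, by
      have := le_max_right 48 (2 * |rho 1 - be|)
      linarith⟩
  have key : ∀ n : ℕ, |rho (n + 1) - be| ≤ K / ((n : ℝ) + 2) := by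
    intro n
    induction n with
    | zero => simpa using hK3
    | succ n ih =>
      have h := abs_rho_succ n
      have hn : (0 : ℝ) ≤ n := Nat.cast_nonneg n
      rw [show n + 1 + 1 = n + 2 by ring]
      push_cast
      refine h.trans ?_
      rw [show (n : ℝ) + 1 + 2 = n + 3 by ring]
      have h2 : 12 / ((n : ℝ) + 3) ≤ K / 4 / (n + 3) :=
        div_le_div_of_nonneg_right (by linarith) (by positivity)
      have h4 : K / 4 / ((n : ℝ) + 3) + K / (n + 2) / 2 ≤ K / (n + 3) := by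
        have h5 : K / ((n : ℝ) + 3) - (K / 4 / ((n : ℝ) + 3) + K / (n + 2) / 2) =
            K * n / (4 * ((n : ℝ) + 3) * (n + 2)) := by
          field_simp
          ring
        have h6 : 0 ≤ K * n / (4 * ((n : ℝ) + 3) * (n + 2)) := by positivity
        linarith
      linarith
  have h1 : Tendsto (fun n : ℕ => K / ((n : ℝ) + 2)) atTop (𝓝 0) :=
    tendsto_const_nhds.div_atTop (tendsto_atTop_add_const_right _ _ tendsto_natCast_atTop_atTop)
  have h2 : Tendsto (fun n => rho (n + 1)) atTop (𝓝 be) := by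
    rw [tendsto_iff_norm_sub_tendsto_zero]
    exact squeeze_zero (fun _ => norm_nonneg _) key h1
  exact (tendsto_add_atTop_iff_nat 1).mp h2

theorem log_a (n : ℕ) : log (a n) = ∑ i ∈ range n, log (rho i) := by
  induction n with
  | zero =>
    have h : a 0 = 1 := by simp [a, v_zero]
    simp [h]
  | succ n ih =>
    rw [sum_range_succ, ← ih, rho, log_div (a_posR _).ne' (a_posR _).ne']
    ring

theorem tendsto_log_a : Tendsto (fun n : ℕ => log (a n) / n) atTop (𝓝 (log be)) := by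
  have h := ((continuousAt_log be_pos.ne').tendsto.comp tendsto_rho).cesaro
  refine h.congr fun n => ?_
  rw [log_a, div_eq_inv_mul]
  rfl

theorem log_be : log be = 5 * log goldenRatio := by
  rw [be_eq, Real.log_pow]
  norm_num

/-! ### The linear forms -/

/-- the denominators of the linear forms -/
def dd (n : ℕ) : ℝ := (Nat.lcmUpto n : ℝ) ^ 2

theorem dd_pos (n : ℕ) : 0 < dd n := by
  have : (0 : ℝ) < Nat.lcmUpto n := by exact_mod_cast Nat.lcmUpto_pos n
  unfold dd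
  positivity

theorem tendsto_log_dd : Tendsto (fun n : ℕ => log (dd n) / n) atTop (𝓝 2) := by
  have h2 := log_lcmUpto_div_tendsto.const_mul 2
  rw [mul_one] at h2
  refine h2.congr fun n => ?_
  rw [dd, Real.log_pow]
  push_cast
  ring

theorem eventually_le_exp {f : ℕ → ℝ} (hf : ∀ n, 0 < f n) {l σ : ℝ}
    (h : Tendsto (fun n : ℕ => log (f n) / n) atTop (𝓝 l)) (hσ : l < σ) :
    ∀ᶠ n : ℕ in atTop, f n ≤ exp (σ * n) := by
  filter_upwards [h.eventually_lt_const hσ, eventually_gt_atTop 0] with n hn hn0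
  have hn1 : (0 : ℝ) < n := by exact_mod_cast hn0
  rw [div_lt_iff₀ hn1] at hn
  rw [← Real.exp_log (hf n)]
  exact Real.exp_le_exp.mpr hn.le

theorem two_lt_log_be : 2 < log be := by
  rw [Real.lt_log_iff_exp_lt be_pos]
  have h1 : Real.exp 2 = Real.exp 1 ^ 2 := by
    rw [← Real.exp_nat_mul]
    norm_num
  have h2 := Real.exp_one_lt_d9
  rw [h1]
  calc Real.exp 1 ^ 2 ≤ (2.7182818286 : ℝ) ^ 2 := by gcongr
    _ < 11.09 := by norm_num
    _ < be := be_gt

theorem exists_int_a (n : ℕ) : ∃ z : ℤ, a n = z := by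
  refine ⟨∑ k ∈ range (n + 1), (n.choose k : ℤ) * ((n.choose k : ℤ) * ((n + k).choose k : ℤ)), ?_⟩
  rw [a]
  push_cast
  rfl

/-- The Casorati determinant. -/
theorem casorati_abs (n : ℕ) :
    b (n + 1) * a n - b n * a (n + 1) = 5 * (-1) ^ n / ((n : ℚ) + 1) ^ 2 := by
  induction n with
  | zero =>
    norm_num [a, b, v, c, Fermat.Agent.Cor.Apery.t, Finset.sum_range_succ, Nat.choose]
  | succ n ih =>
    have ha := isRec_a n
    have hb := isRec_b n
    have hn1 : ((n : ℚ) + 1) ^ 2 ≠ 0 := by positivity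
    have hn2 : ((n : ℚ) + 2) ^ 2 ≠ 0 := by positivity
    rw [eq_div_iff hn1] at ih
    push_cast
    rw [show (n : ℚ) + 1 + 1 = n + 2 by ring, eq_div_iff hn2, pow_succ]
    linear_combination a (n + 1) * hb - b (n + 1) * ha - ih

/-- **The measure** of `π² / 6`, from integrality and approximation. -/
theorem measure_of (hI : IntStmt) (hL : LimStmt) {μ : ℝ}
    (hμ : 1 + (5 * log goldenRatio + 2) / (5 * log goldenRatio - 2) < μ) :
    ¬ LiouvilleWith μ (π ^ 2 / 6) := by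
  rw [← log_be] at hμ
  set L := log be with hLdef
  have hL3 : 2 < L := two_lt_log_be
  obtain ⟨ε, hε, hε1, hε2⟩ : ∃ ε : ℝ, 0 < ε ∧ 2 + ε < L ∧ 1 + (L + 2 + ε) / (L - 2 - ε) < μ := by
    have h1 : Tendsto (fun ε : ℝ => 1 + (L + 2 + ε) / (L - 2 - ε)) (𝓝[>] 0)
        (𝓝 (1 + (L + 2 + 0) / (L - 2 - 0))) := by
      have h2 : ContinuousAt (fun ε : ℝ => 1 + (L + 2 + ε) / (L - 2 - ε)) 0 := by
        refine ContinuousAt.add continuousAt_const (ContinuousAt.div ?_ ?_ ?_)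
        · exact continuousAt_const.add continuousAt_id
        · exact continuousAt_const.sub continuousAt_id
        · rw [sub_zero]
          exact (by linarith : L - 2 ≠ 0)
      exact h2.tendsto.mono_left nhdsWithin_le_nhds
    rw [add_zero, sub_zero] at h1
    have h3 : ∀ᶠ ε : ℝ in 𝓝[>] 0, 2 + ε < L := by
      have : Tendsto (fun ε : ℝ => 2 + ε) (𝓝[>] 0) (𝓝 (2 + 0)) :=
        (tendsto_const_nhds.add tendsto_id).mono_left nhdsWithin_le_nhds
      rw [add_zero] at this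
      exact this.eventually_lt_const hL3
    have h6 : ∀ᶠ ε : ℝ in 𝓝[>] 0, 0 < ε := self_mem_nhdsWithin
    obtain ⟨ε, hε, h4, h5⟩ := (h6.and ((h1.eventually_lt_const hμ).and h3)).exists
    exact ⟨ε, hε, h5, h4⟩
  obtain ⟨C, hC0, hC⟩ := hL
  choose z hz using exists_int_a
  choose y hy using hI
  have g1 : Tendsto (fun n : ℕ => log (dd n * a n) / n) atTop (𝓝 (2 + L)) := by
    refine (tendsto_log_dd.add tendsto_log_a).congr fun n => ?_
    rw [log_mul (dd_pos n).ne' (a_posR n).ne']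
    ring
  have g2 : Tendsto (fun n : ℕ => log (dd n * (C / a n)) / n) atTop (𝓝 (2 - L)) := by
    have h1 : Tendsto (fun n : ℕ => log C / (n : ℝ)) atTop (𝓝 0) :=
      tendsto_const_nhds.div_atTop tendsto_natCast_atTop_atTop
    have h2 := (tendsto_log_dd.sub tendsto_log_a).add h1
    rw [add_zero] at h2
    refine h2.congr fun n => ?_
    rw [log_mul (dd_pos n).ne' (div_pos hC0 (a_posR n)).ne',
      log_div hC0.ne' (a_posR n).ne']
    ring
  have g1' := eventually_le_exp (fun n => mul_pos (dd_pos n) (a_posR n)) g1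
    (σ := L + 2 + ε) (by linarith)
  have g2' := eventually_le_exp (fun n => mul_pos (dd_pos n) (div_pos hC0 (a_posR n))) g2
    (σ := -(L - 2 - ε)) (by linarith)
  obtain ⟨n₀, hn₀⟩ := eventually_atTop.mp (g1'.and g2')
  obtain ⟨q, hqr⟩ : ∃ q : ℕ → ℤ, ∀ n, (q n : ℝ) = dd n * a n := by
    refine ⟨fun n => (Nat.lcmUpto n : ℤ) ^ 2 * z n, fun n => ?_⟩
    have : (a n : ℝ) = z n := by rw [hz n]; push_cast; rfl
    rw [this, dd]
    push_cast
    ring
  have hpr : ∀ n, ((y n : ℤ) : ℝ) = dd n * b n := by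
    intro n
    have := congrArg (Rat.cast : ℚ → ℝ) (hy n)
    push_cast at this
    rw [← this, dd]
  refine not_liouvilleWith (q := q) (p := y)
    (σ := L + 2 + ε) (τ := L - 2 - ε) (n₀ := n₀) (by linarith) (by linarith) ?_ ?_ ?_ ?_ hε2
  · intro n _
    have h1 : (0 : ℝ) < q n := by
      rw [hqr]
      exact mul_pos (dd_pos n) (a_posR n)
    exact_mod_cast h1
  · intro n _ h
    have h1 := congrArg (Int.cast : ℤ → ℝ) h
    rw [Int.cast_mul, Int.cast_mul, hqr, hqr, hpr, hpr] at h1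
    have h2 : ((b (n + 1) : ℝ) * a n - b n * a (n + 1)) = 5 * (-1) ^ n / ((n : ℝ) + 1) ^ 2 := by
      have h5 := congrArg (Rat.cast : ℚ → ℝ) (casorati_abs n)
      push_cast at h5
      exact h5
    have h3 : (5 * (-1) ^ n / ((n : ℝ) + 1) ^ 2) ≠ 0 := by
      refine div_ne_zero (mul_ne_zero (by norm_num) (pow_ne_zero _ (by norm_num))) ?_
      positivity
    have h4 : dd n * dd (n + 1) * ((b (n + 1) : ℝ) * a n - b n * a (n + 1)) = 0 := by
      linear_combination -h1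
    rw [h2] at h4
    exact mul_ne_zero (mul_ne_zero (dd_pos n).ne' (dd_pos (n + 1)).ne') h3 h4
  · intro n hn
    rw [hqr]
    exact (hn₀ n hn).1
  · intro n hn
    obtain ⟨-, h2⟩ := hn₀ n hn
    rw [hqr, hpr]
    have h5 : dd n * (a n : ℝ) * (π ^ 2 / 6) - dd n * b n =
        dd n * ((a n : ℝ) * (π ^ 2 / 6) - b n) := by ring
    rw [h5, abs_mul, abs_of_pos (dd_pos n)]
    refine (mul_le_mul_of_nonneg_left (hC n) (dd_pos n).le).trans (h2.trans_eq ?_)
    congr 1
    ring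

/-! ### Squares -/

/-- If the irrational number `x` is approximable to the order `2 μ`, then `x²` is approximable to
the order `μ`. -/
theorem liouvilleWith_sq {x μ : ℝ} (hx : Irrational x) (hμ : 0 ≤ μ) (h : LiouvilleWith (2 * μ) x) :
    LiouvilleWith μ (x ^ 2) := by
  obtain ⟨C, hC0, hC⟩ := h.exists_pos
  refine ⟨C * (2 * |x| + C), ?_⟩
  have ht : Tendsto (fun n : ℕ => n ^ 2) atTop atTop := tendsto_pow_atTop two_ne_zero
  refine ht.frequently (hC.mono ?_)
  rintro n ⟨hn1, m, -, hm⟩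
  have hn : (0 : ℝ) < n := by exact_mod_cast hn1
  have hn1' : (1 : ℝ) ≤ n := by exact_mod_cast hn1
  refine ⟨m ^ 2, ?_, ?_⟩
  · intro he
    push_cast at he
    rw [← div_pow, sq_eq_sq_iff_eq_or_eq_neg] at he
    rcases he with he | he
    · exact hx ⟨(m : ℚ) / n, by push_cast; exact he.symm⟩
    · exact hx ⟨-((m : ℚ) / n), by push_cast; exact he.symm⟩
  · push_cast
    rw [← div_pow, sq_sub_sq, abs_mul, mul_comm |x + _|, ← Real.rpow_natCast_mul hn.le]
    push_cast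
    have h1 : C / (n : ℝ) ^ (2 * μ) ≤ C := by
      refine div_le_self hC0.le ?_
      exact Real.one_le_rpow hn1' (by linarith)
    have h2 : |x + m / n| ≤ 2 * |x| + C := by
      have h3 : x + m / n = 2 * x - (x - m / n) := by ring
      rw [h3]
      refine (abs_sub _ _).trans ?_
      rw [abs_mul, abs_two]
      linarith
    calc |x - m / n| * |x + m / n| ≤ |x - m / n| * (2 * |x| + C) :=
          mul_le_mul_of_nonneg_left h2 (abs_nonneg _)
      _ < C / (n : ℝ) ^ (2 * μ) * (2 * |x| + C) :=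
          mul_lt_mul_of_pos_right hm (by positivity)
      _ = C * (2 * |x| + C) / (n : ℝ) ^ (2 * μ) := by ring

end

end Fermat.Agent.Cor.AperyPi
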