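import Fermat.Agent.Corollaries.Apery.PiGrowth
import Fermat.Agent.Corollaries.Apery.Lim

/-!
# The quotients `b n / a n` tend to `ζ(2) = π² / 6`

From Apéry's recursion: `|b (n + 1) a n - b n a (n + 1)| = 5 / (n + 1)²`, so
`|π² / 6 - b n / a n| ≤ C / (a n)²`.
-/

set_option autoImplicit false

open Finset Filter Topology
open Fermat.Agent.Cor.Apery (t t_nonneg t_le_succ succ_le_t)

namespace Fermat.Agent.Cor.AperyPi

/-- the partial sums of `∑ 1 / m²` -/
def hh (n : ℕ) : ℚ := ∑ m ∈ range n, 1 / ((m : ℚ) + 1) ^ 2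

/-- the partial sums of `∑ (-1)^(m-1) / m²` -/
def alt (n : ℕ) : ℚ := ∑ m ∈ range n, (-1) ^ m / ((m : ℚ) + 1) ^ 2

theorem v_le_succ (n k : ℕ) : v n k ≤ v (n + 1) k := by
  unfold v
  have h1 : (n.choose k : ℚ) ≤ ((n + 1).choose k : ℚ) := by
    exact_mod_cast Nat.choose_le_choose k (Nat.le_succ n)
  exact mul_le_mul h1 (t_le_succ n k) (t_nonneg n k) (by positivity)

theorem a_le_succ (n : ℕ) : a n ≤ a (n + 1) := by
  unfold a
  rw [Finset.sum_range_succ _ (n + 1)]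
  have h : ∑ k ∈ range (n + 1), v n k ≤ ∑ k ∈ range (n + 1), v (n + 1) k :=
    Finset.sum_le_sum fun k _ => v_le_succ n k
  have h2 : 0 ≤ v (n + 1) (n + 1) := v_nonneg _ _
  linarith

theorem a_mono : Monotone a := monotone_nat_of_le_succ a_le_succ

theorem hh_nonneg (n : ℕ) : 0 ≤ hh n := by unfold hh; positivity

theorem hh_mono : Monotone hh := by
  refine monotone_nat_of_le_succ fun n => ?_
  unfold hh
  rw [Finset.sum_range_succ]
  have : (0 : ℚ) ≤ 1 / ((n : ℚ) + 1) ^ 2 := by positivity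
  linarith

theorem abs_c_sub_le {n k : ℕ} (hk : k ≤ n) : |c n k - 2 * alt n| ≤ hh n / ((n : ℚ) + 1) := by
  unfold c
  rw [show ∑ m ∈ range n, (-1) ^ m / ((m : ℚ) + 1) ^ 2 = alt n from rfl, add_sub_cancel_left,
    abs_mul, abs_pow, abs_neg, abs_one, one_pow, one_mul]
  refine (Finset.abs_sum_le_sum_abs _ _).trans ?_
  calc ∑ m ∈ range k, |(-1) ^ m / (((m : ℚ) + 1) ^ 2 * t n (m + 1))|
      ≤ ∑ m ∈ range k, (1 / ((m : ℚ) + 1) ^ 2) / ((n : ℚ) + 1) := by
        refine Finset.sum_le_sum fun m hm => ?_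
        have hm' := Finset.mem_range.mp hm
        have ht := succ_le_t (n := n) (j := m + 1) (by omega) (by omega)
        have hn : (0 : ℚ) < (n : ℚ) + 1 := by positivity
        have ht0 : 0 < t n (m + 1) := lt_of_lt_of_le hn ht
        rw [abs_div, abs_pow, abs_neg, abs_one, one_pow, abs_of_pos (by positivity), div_div]
        apply one_div_le_one_div_of_le (by positivity)
        exact mul_le_mul_of_nonneg_left ht (by positivity)
    _ = hh k / ((n : ℚ) + 1) := by rw [← Finset.sum_div]; rfl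
    _ ≤ hh n / ((n : ℚ) + 1) := by
        have := hh_mono hk
        gcongr

theorem abs_b_sub_le (n : ℕ) : |b n - 2 * alt n * a n| ≤ hh n / ((n : ℚ) + 1) * a n := by
  unfold b a
  rw [Finset.mul_sum, Finset.mul_sum, ← Finset.sum_sub_distrib]
  refine (Finset.abs_sum_le_sum_abs _ _).trans (Finset.sum_le_sum fun k hk => ?_)
  have hk' := Finset.mem_range.mp hk
  have h := abs_c_sub_le (n := n) (k := k) (by omega)
  rw [show v n k * c n k - 2 * alt n * v n k = (c n k - 2 * alt n) * v n k by ring, abs_mul,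
    abs_of_nonneg (v_nonneg n k)]
  exact mul_le_mul_of_nonneg_right h (v_nonneg _ _)

theorem hasSum_sq : HasSum (fun m : ℕ => 1 / ((m : ℝ) + 1) ^ 2) (Real.pi ^ 2 / 6) := by
  have h := (hasSum_nat_add_iff' 1).mpr hasSum_zeta_two
  simpa using h

theorem hasSum_alt : HasSum (fun m : ℕ => (-1) ^ m / ((m : ℝ) + 1) ^ 2) (Real.pi ^ 2 / 12) := by
  have h := hasSum_sq
  have hodd : HasSum (fun k : ℕ => 1 / (((2 * k + 1 : ℕ) : ℝ) + 1) ^ 2) (Real.pi ^ 2 / 24) := by
    have h2 := h.mul_left (1 / 4)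
    rw [show (1 / 4 : ℝ) * (Real.pi ^ 2 / 6) = Real.pi ^ 2 / 24 by ring] at h2
    have e : (fun k : ℕ => 1 / (((2 * k + 1 : ℕ) : ℝ) + 1) ^ 2) =
        fun i : ℕ => 1 / 4 * (1 / ((i : ℝ) + 1) ^ 2) := by
      funext k
      have hk : ((k : ℝ) + 1) ≠ 0 := by positivity
      push_cast
      rw [show (2 * (k : ℝ) + 1 + 1) = 2 * (k + 1) by ring]
      field_simp
      norm_num
    rw [e]
    exact h2
  have heven : Summable fun k : ℕ => 1 / (((2 * k : ℕ) : ℝ) + 1) ^ 2 :=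
    h.summable.comp_injective (i := fun k : ℕ => 2 * k) fun x y hxy => by
      have : 2 * x = 2 * y := hxy
      omega
  have h2 := (HasSum.even_add_odd (f := fun m : ℕ => 1 / ((m : ℝ) + 1) ^ 2) heven.hasSum
    hodd).unique h
  have h3 : HasSum (fun m : ℕ => (-1 : ℝ) ^ m / ((m : ℝ) + 1) ^ 2)
      (∑' k : ℕ, 1 / (((2 * k : ℕ) : ℝ) + 1) ^ 2 + -(Real.pi ^ 2 / 24)) := by
    refine HasSum.even_add_odd ?_ ?_
    · have e : (fun k : ℕ => (-1 : ℝ) ^ (2 * k) / (((2 * k : ℕ) : ℝ) + 1) ^ 2) =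
          fun k : ℕ => 1 / (((2 * k : ℕ) : ℝ) + 1) ^ 2 := by
        funext k
        rw [pow_mul]
        norm_num
      rw [e]
      exact heven.hasSum
    · have e : (fun k : ℕ => (-1 : ℝ) ^ (2 * k + 1) / (((2 * k + 1 : ℕ) : ℝ) + 1) ^ 2) =
          fun k : ℕ => -(1 / (((2 * k + 1 : ℕ) : ℝ) + 1) ^ 2) := by
        funext k
        rw [pow_succ, pow_mul]
        norm_num [neg_div]
      rw [e]
      exact hodd.neg
  have e : Real.pi ^ 2 / 12 = ∑' k : ℕ, 1 / (((2 * k : ℕ) : ℝ) + 1) ^ 2 + -(Real.pi ^ 2 / 24) := by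
    linarith
  rw [e]
  exact h3

theorem hh_cast (n : ℕ) : ((hh n : ℚ) : ℝ) = ∑ m ∈ range n, 1 / ((m : ℝ) + 1) ^ 2 := by
  unfold hh
  push_cast
  rfl

theorem alt_cast (n : ℕ) : ((alt n : ℚ) : ℝ) = ∑ m ∈ range n, (-1) ^ m / ((m : ℝ) + 1) ^ 2 := by
  unfold alt
  push_cast
  rfl

theorem tendsto_hh : Tendsto (fun n => ((hh n : ℚ) : ℝ)) atTop (𝓝 (Real.pi ^ 2 / 6)) := by
  simp_rw [hh_cast]
  exact hasSum_sq.tendsto_sum_nat

theorem tendsto_alt : Tendsto (fun n => ((alt n : ℚ) : ℝ)) atTop (𝓝 (Real.pi ^ 2 / 12)) := by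
  simp_rw [alt_cast]
  exact hasSum_alt.tendsto_sum_nat

theorem hh_le (n : ℕ) : ((hh n : ℚ) : ℝ) ≤ Real.pi ^ 2 / 6 := by
  rw [hh_cast]
  exact sum_le_hasSum _ (fun m _ => by positivity) hasSum_sq

/-- **`b n / a n → π² / 6`.** -/
theorem tendsto_quot : Tendsto (fun n => (b n : ℝ) / a n) atTop (𝓝 (Real.pi ^ 2 / 6)) := by
  have h1 : Tendsto (fun n : ℕ => Real.pi ^ 2 / 6 / ((n : ℝ) + 1)) atTop (𝓝 0) := by
    have := tendsto_one_div_add_atTop_nhds_zero_nat (𝕜 := ℝ)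
    have h := this.const_mul (Real.pi ^ 2 / 6)
    rw [mul_zero] at h
    refine h.congr fun n => ?_
    rw [mul_one_div]
  have h2 : Tendsto (fun n => (b n : ℝ) / a n - 2 * alt n) atTop (𝓝 0) := by
    refine squeeze_zero_norm (fun n => ?_) h1
    have ha := a_posR n
    have h3 : |(b n : ℝ) - 2 * alt n * a n| ≤ hh n / ((n : ℝ) + 1) * a n := by
      exact_mod_cast abs_b_sub_le n
    rw [Real.norm_eq_abs, show (b n : ℝ) / a n - 2 * alt n = ((b n : ℝ) - 2 * alt n * a n) / a n by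
      field_simp, abs_div, abs_of_pos ha, div_le_iff₀ ha]
    refine h3.trans (mul_le_mul_of_nonneg_right ?_ ha.le)
    have := hh_le n
    gcongr
  have h3 := h2.add (tendsto_alt.const_mul 2)
  convert h3 using 2
  · ring
  · ring

theorem abs_quot_succ_sub (n : ℕ) :
    |(b (n + 1) : ℝ) / a (n + 1) - b n / a n| = 5 / ((n : ℝ) + 1) ^ 2 / (a n * a (n + 1)) := by
  have h1 : (b (n + 1) : ℝ) * a n - b n * a (n + 1) = 5 * (-1) ^ n / ((n : ℝ) + 1) ^ 2 := by
    have h0 := congrArg (fun x : ℚ => (x : ℝ)) (casorati_abs n)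
    push_cast at h0
    exact h0
  have ha := a_posR n
  have ha' := a_posR (n + 1)
  have hn : (0 : ℝ) < ((n : ℝ) + 1) ^ 2 := by positivity
  have h2 : (b (n + 1) : ℝ) / a (n + 1) - b n / a n =
      (-1) ^ n * (5 / ((n : ℝ) + 1) ^ 2 / (a n * a (n + 1))) := by
    rw [div_sub_div _ _ ha'.ne' ha.ne', mul_comm (a (n + 1) : ℝ) (b n : ℝ), h1]
    field_simp
  rw [h2, abs_mul, abs_pow, abs_neg, abs_one, one_pow, one_mul, abs_of_pos (by positivity)]

theorem abs_quot_sub_le (n d : ℕ) :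
    |(b (n + d) : ℝ) / a (n + d) - b n / a n| ≤ 5 / (a n : ℝ) ^ 2 * (hh (n + d) - hh n) := by
  induction d with
  | zero => simp
  | succ d ih =>
    have h1 := abs_quot_succ_sub (n + d)
    have ha := a_posR n
    have ha1 : (a n : ℝ) ≤ a (n + d) := by exact_mod_cast a_mono (Nat.le_add_right n d)
    have ha2 : (a n : ℝ) ≤ a (n + d + 1) := by exact_mod_cast a_mono (by omega : n ≤ n + d + 1)
    have h2 : ((hh (n + d + 1) : ℚ) : ℝ) = hh (n + d) + 1 / (((n + d : ℕ) : ℝ) + 1) ^ 2 := by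
      rw [hh_cast, hh_cast, Finset.sum_range_succ]
    have h3 : 5 / (((n + d : ℕ) : ℝ) + 1) ^ 2 / (a (n + d) * a (n + d + 1))
        ≤ 5 / (a n : ℝ) ^ 2 * (1 / (((n + d : ℕ) : ℝ) + 1) ^ 2) := by
      rw [div_div, div_mul_div_comm, mul_one]
      apply div_le_div_of_nonneg_left (by norm_num) (by positivity)
      rw [mul_comm ((a n : ℝ) ^ 2)]
      apply mul_le_mul_of_nonneg_left _ (by positivity)
      rw [pow_two]
      exact mul_le_mul ha1 ha2 ha.le (ha.le.trans ha1)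
    rw [← add_assoc, h2]
    have h4 := abs_sub_le ((b (n + d + 1) : ℝ) / a (n + d + 1)) (b (n + d) / a (n + d))
      (b n / a n)
    linarith [h1, h3, ih, h4]

/-- **The distance of `b n / a n` to `π² / 6`.** -/
theorem limStmt : LimStmt := by
  refine ⟨5 * (Real.pi ^ 2 / 6), by positivity, fun n => ?_⟩
  have ha := a_posR n
  have h2 : |Real.pi ^ 2 / 6 - b n / a n| ≤ 5 / (a n : ℝ) ^ 2 * (Real.pi ^ 2 / 6 - hh n) := by
    have h3 : Tendsto (fun d => |(b (n + d) : ℝ) / a (n + d) - b n / a n|) atTop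
        (𝓝 |Real.pi ^ 2 / 6 - b n / a n|) := by
      have := (tendsto_add_atTop_iff_nat (f := fun m => (b m : ℝ) / a m) n).mpr tendsto_quot
      simp_rw [add_comm _ n] at this
      exact (this.sub_const _).abs
    have h4 : Tendsto (fun d => 5 / (a n : ℝ) ^ 2 * ((hh (n + d) : ℝ) - hh n)) atTop
        (𝓝 (5 / (a n : ℝ) ^ 2 * (Real.pi ^ 2 / 6 - hh n))) := by
      have := (tendsto_add_atTop_iff_nat (f := fun m => ((hh m : ℚ) : ℝ)) n).mpr tendsto_hh
      simp_rw [add_comm _ n] at this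
      exact (this.sub_const _).const_mul _
    exact le_of_tendsto_of_tendsto' h3 h4 fun d => abs_quot_sub_le n d
  have h5 : (0 : ℝ) ≤ hh n := by exact_mod_cast hh_nonneg n
  have h6 : (a n : ℝ) * (Real.pi ^ 2 / 6) - b n = a n * (Real.pi ^ 2 / 6 - b n / a n) := by
    field_simp
  rw [h6, abs_mul, abs_of_pos ha]
  calc (a n : ℝ) * |Real.pi ^ 2 / 6 - b n / a n|
      ≤ a n * (5 / (a n : ℝ) ^ 2 * (Real.pi ^ 2 / 6 - hh n)) :=
        mul_le_mul_of_nonneg_left h2 ha.le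
    _ ≤ a n * (5 / (a n : ℝ) ^ 2 * (Real.pi ^ 2 / 6)) := by
        apply mul_le_mul_of_nonneg_left _ ha.le
        apply mul_le_mul_of_nonneg_left _ (by positivity)
        linarith
    _ = 5 * (Real.pi ^ 2 / 6) / a n := by
        field_simp

end Fermat.Agent.Cor.AperyPi
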