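import Fermat.Agent.Corollaries.Apery.PiGrowth
import Fermat.Agent.Corollaries.Apery.PiDenom
import Fermat.Agent.Corollaries.Apery.PiLim

/-!
# `π` is not a Liouville number

K. Mahler, 1953; the exponents `11.8507…` for `π²` and `23.7015…` for `π` are those of Apéry's
approximations to `ζ(2) = π² / 6` (1978).
-/

set_option autoImplicit false

open Real

namespace Fermat.Agent.Cor.AperyPi

/-- **The irrationality measure of `π²`** (Apéry 1978): at most
`1 + (5 log φ + 2) / (5 log φ - 2) = 11.8507…`, `φ = (1 + √5) / 2`. -/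
theorem not_liouvilleWith_pi_sq {μ : ℝ}
    (hμ : 1 + (5 * log goldenRatio + 2) / (5 * log goldenRatio - 2) < μ) :
    ¬ LiouvilleWith μ (π ^ 2) := by
  intro h
  refine measure_of intStmt limStmt hμ ?_
  have h2 := h.mul_rat (r := 1 / 6) (by norm_num)
  have h3 : π ^ 2 * ((1 / 6 : ℚ) : ℝ) = π ^ 2 / 6 := by
    push_cast
    ring
  rwa [h3] at h2

/-- The exponent is less than `11.86`. -/
theorem exponent_lt : 1 + (5 * log goldenRatio + 2) / (5 * log goldenRatio - 2) < 11.86 := by
  rw [← log_be]
  have h3 : 2.40568 < log be := by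
    rw [Real.lt_log_iff_exp_lt be_pos]
    have h1 : Real.exp 2.40568 = Real.exp 1 ^ 2 * Real.exp 0.40568 := by
      rw [← Real.exp_nat_mul, ← Real.exp_add]
      norm_num
    have h2 := Real.exp_one_lt_d9
    have h4 : Real.exp 0.40568 ≤ 1.50033 := by
      refine (Real.exp_bound' (x := 0.40568) (by norm_num) (by norm_num) (n := 8)
        (by norm_num)).trans ?_
      norm_num [Finset.sum_range_succ, Nat.factorial]
    rw [h1]
    calc Real.exp 1 ^ 2 * Real.exp 0.40568 ≤ (2.7182818286 : ℝ) ^ 2 * 1.50033 := by gcongr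
      _ < 11.09 := by norm_num
      _ < be := be_gt
  have h5 : 0 < log be - 2 := by linarith
  have h6 : (log be + 2) / (log be - 2) < 10.86 := by
    rw [div_lt_iff₀ h5]
    linarith
  linarith

/-- `π²` is not approximable to the order `11.86`. -/
theorem not_liouvilleWith_pi_sq_num : ¬ LiouvilleWith 11.86 (π ^ 2) :=
  not_liouvilleWith_pi_sq exponent_lt

/-- **The irrationality measure of `π`**: at most `23.7015…`. -/
theorem not_liouvilleWith_pi {μ : ℝ}
    (hμ : 2 * (1 + (5 * log goldenRatio + 2) / (5 * log goldenRatio - 2)) < μ) :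
    ¬ LiouvilleWith μ π := by
  intro h
  have hL := two_lt_log_be
  rw [log_be] at hL
  have h0 : 0 < (5 * log goldenRatio + 2) / (5 * log goldenRatio - 2) :=
    div_pos (by linarith) (by linarith)
  have h1 : LiouvilleWith (2 * (μ / 2)) π := by
    rwa [mul_div_cancel₀ _ (two_ne_zero' ℝ)]
  exact not_liouvilleWith_pi_sq (μ := μ / 2) (by linarith)
    (liouvilleWith_sq irrational_pi (by linarith) h1)

/-- `π` is not approximable to the order `23.72`. -/
theorem not_liouvilleWith_pi_num : ¬ LiouvilleWith 23.72 π :=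
  not_liouvilleWith_pi (by linarith [exponent_lt])

/-- **`π` is not a Liouville number** (Mahler 1953). -/
theorem not_liouville_pi : ¬ Liouville π := fun h =>
  not_liouvilleWith_pi_num (h.liouvilleWith _)

/-- **`π²` is not a Liouville number**. -/
theorem not_liouville_pi_sq : ¬ Liouville (π ^ 2) := fun h =>
  not_liouvilleWith_pi_sq_num (h.liouvilleWith _)

end Fermat.Agent.Cor.AperyPi
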