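import Fermat.Agent.Corollaries.Apery.PiDefs

/-!
# Apéry's recursion for `ζ(2)`

The certificates: `B(n, k) = (k² + 3 (2n + 1) k - 11n² - 9n - 2) v(n, k)` and
`A(n, k) = B(n, k) c(n, k) - 3 (-1)^(n+k) k C(n, k) / n`.
-/

set_option autoImplicit false

open Finset
open Fermat.Agent.Cor.Apery (t t_zero t_eq_zero t_pos t_succ_left t_succ_right neg_one_pow_succ
  sum_eq)

namespace Fermat.Agent.Cor.AperyPi

/-- the binomial coefficient -/
def w (n k : ℕ) : ℚ := (n.choose k : ℚ)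

theorem v_eq (n k : ℕ) : v n k = w n k * t n k := rfl

theorem v_zero (n : ℕ) : v n 0 = 1 := by simp [v, t_zero]

theorem v_eq_zero {n k : ℕ} (h : n < k) : v n k = 0 := by
  rw [v, t_eq_zero h, mul_zero]

theorem w_eq_zero {n k : ℕ} (h : n < k) : w n k = 0 := by
  rw [w, Nat.choose_eq_zero_of_lt h, Nat.cast_zero]

theorem w_succ_left (n k : ℕ) : ((n : ℚ) + 1 - k) * w (n + 1) k = ((n : ℚ) + 1) * w n k := by
  rcases lt_or_ge (n + 1) k with h | h
  · rw [w_eq_zero h, w_eq_zero (by omega), mul_zero, mul_zero]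
  · have h1 := Nat.choose_mul_succ_eq n k
    have := congrArg (Nat.cast : ℕ → ℚ) h1
    push_cast [Nat.cast_sub h] at this
    rw [w, w]
    linear_combination -this

theorem w_succ_right (n k : ℕ) : ((k : ℚ) + 1) * w n (k + 1) = ((n : ℚ) - k) * w n k := by
  rcases lt_or_ge n k with h | h
  · rw [w_eq_zero h, w_eq_zero (by omega), mul_zero, mul_zero]
  · have h1 := Nat.choose_succ_right_eq n k
    have := congrArg (Nat.cast : ℕ → ℚ) h1
    push_cast [Nat.cast_sub h] at this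
    rw [w, w]
    linear_combination this

/-! ### The differences of `c` -/

theorem c_succ_right (n k : ℕ) :
    c n (k + 1) = c n k + (-1) ^ n * ((-1) ^ k / (((k : ℚ) + 1) ^ 2 * t n (k + 1))) := by
  rw [c, c, sum_range_succ, mul_add, add_assoc]

theorem rel_tzero {n k : ℕ} :
    t n (k + 1) = ((n : ℚ) - k) / ((n : ℚ) + k + 2) * t (n + 1) (k + 1) := by
  have r1 := t_succ_left n (k + 1)
  push_cast at r1
  rw [div_mul_eq_mul_div, eq_div_iff (by positivity)]
  linear_combination -r1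

theorem rel_tleft {n k : ℕ} (h : k ≤ n) : t (n + 1) k =
    ((k : ℚ) + 1) ^ 2 / (((n : ℚ) + 1 - k) * ((n : ℚ) + k + 2)) * t (n + 1) (k + 1) := by
  have r2 := t_succ_right (n + 1) k
  push_cast at r2
  have hk : (k : ℚ) ≤ n := by exact_mod_cast h
  have d : (n : ℚ) + 1 - k ≠ 0 := by linarith
  have d' : (n : ℚ) + k + 2 ≠ 0 := by positivity
  rw [div_mul_eq_mul_div, eq_div_iff (mul_ne_zero d d')]
  linear_combination -r2

theorem c_succ_left {n k : ℕ} (h : k ≤ n) : c (n + 1) k - c n k =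
    2 * (-1) ^ n * (-1) ^ k / (((n : ℚ) + 1) * ((n : ℚ) + 1 - k) * t (n + 1) k) := by
  induction k with
  | zero =>
    rw [c, c, sum_range_succ, t_zero]
    simp only [range_zero, sum_empty, mul_zero, add_zero, pow_zero, Nat.cast_zero, sub_zero,
      mul_one]
    rw [mul_add, add_sub_cancel_left, ← pow_two, mul_div_assoc]
  | succ k ih =>
    have ih' := ih (by omega)
    have hk : (k : ℚ) + 1 ≤ n := by exact_mod_cast h
    have hT : t (n + 1) (k + 1) ≠ 0 := (t_pos (by omega)).ne'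
    have d2 : (n : ℚ) + 1 - k ≠ 0 := by linarith
    have d3 : (n : ℚ) - k ≠ 0 := by linarith
    have d4 : (k : ℚ) + 1 ≠ 0 := by positivity
    have d5 : (n : ℚ) + 1 ≠ 0 := by positivity
    have d7 : (n : ℚ) + k + 2 ≠ 0 := by positivity
    have d8 : (n : ℚ) + 1 - (k + 1) ≠ 0 := by
      intro h0
      apply d3
      linarith
    have e : c (n + 1) k = c n k +
        2 * (-1) ^ n * (-1) ^ k / (((n : ℚ) + 1) * ((n : ℚ) + 1 - k) * t (n + 1) k) := by
      linear_combination ih'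
    rw [c_succ_right, c_succ_right, neg_one_pow_succ, neg_one_pow_succ, e,
      rel_tzero (n := n) (k := k), rel_tleft (by omega)]
    push_cast
    generalize t (n + 1) (k + 1) = T at hT ⊢
    generalize (-1 : ℚ) ^ k = s
    generalize (-1 : ℚ) ^ n = r
    field_simp
    ring

/-! ### The certificates -/

/-- `B(n, k)` -/
def B (n k : ℕ) : ℚ :=
  ((k : ℚ) ^ 2 + 3 * (2 * (n : ℚ) + 1) * k - 11 * (n : ℚ) ^ 2 - 9 * n - 2) * v n k

/-- `A(n, k)` -/
def A (n k : ℕ) : ℚ := B n k * c n k - 3 * (-1) ^ n * (-1) ^ k * k * w n k / n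

/-- the left hand side of the recursion for `v` -/
def LA (n k : ℕ) : ℚ := ((n : ℚ) + 2) ^ 2 * v (n + 2) k -
  (11 * ((n : ℚ) + 1) ^ 2 + 11 * ((n : ℚ) + 1) + 3) * v (n + 1) k - ((n : ℚ) + 1) ^ 2 * v n k

/-- the left hand side of the recursion for `v c` -/
def LB (n k : ℕ) : ℚ := ((n : ℚ) + 2) ^ 2 * (v (n + 2) k * c (n + 2) k) -
  (11 * ((n : ℚ) + 1) ^ 2 + 11 * ((n : ℚ) + 1) + 3) * (v (n + 1) k * c (n + 1) k) -
    ((n : ℚ) + 1) ^ 2 * (v n k * c n k)

section

variable {n k : ℕ}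

theorem rel_ttwo (h : k ≤ n) : t (n + 2) (k + 1) =
    ((n : ℚ) + k + 3) / ((n : ℚ) + 1 - k) * t (n + 1) (k + 1) := by
  have r1 := t_succ_left (n + 1) (k + 1)
  push_cast at r1
  have hk : (k : ℚ) ≤ n := by exact_mod_cast h
  have d : (n : ℚ) + 1 - k ≠ 0 := by linarith
  rw [div_mul_eq_mul_div, eq_div_iff d]
  linear_combination r1

theorem rel_wtwo (h : k ≤ n) : w (n + 2) (k + 1) =
    ((n : ℚ) + 2) / ((n : ℚ) + 1 - k) * w (n + 1) (k + 1) := by
  have r1 := w_succ_left (n + 1) (k + 1)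
  push_cast at r1
  have hk : (k : ℚ) ≤ n := by exact_mod_cast h
  have d : (n : ℚ) + 1 - k ≠ 0 := by linarith
  rw [div_mul_eq_mul_div, eq_div_iff d]
  linear_combination r1

theorem rel_wzero : w n (k + 1) = ((n : ℚ) - k) / ((n : ℚ) + 1) * w (n + 1) (k + 1) := by
  have r1 := w_succ_left n (k + 1)
  push_cast at r1
  rw [div_mul_eq_mul_div, eq_div_iff (by positivity)]
  linear_combination -r1

theorem rel_wleft (h : k ≤ n) : w (n + 1) k =
    ((k : ℚ) + 1) / ((n : ℚ) + 1 - k) * w (n + 1) (k + 1) := by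
  have r2 := w_succ_right (n + 1) k
  push_cast at r2
  have hk : (k : ℚ) ≤ n := by exact_mod_cast h
  have d : (n : ℚ) + 1 - k ≠ 0 := by linarith
  rw [div_mul_eq_mul_div, eq_div_iff d]
  linear_combination -r2

theorem rel_ttop : t (n + 2) (n + 2) = 2 * (2 * (n : ℚ) + 3) / ((n : ℚ) + 2) * t (n + 1) (n + 1) := by
  have r1 := t_succ_left (n + 1) (n + 1)
  have r2 := t_succ_right (n + 2) (n + 1)
  push_cast at r1 r2
  have r3 : t (n + 2) (n + 1) = (2 * (n : ℚ) + 3) * t (n + 1) (n + 1) := by linear_combination r1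
  rw [div_mul_eq_mul_div, eq_div_iff (by positivity)]
  have hn : (n : ℚ) + 2 ≠ 0 := by positivity
  refine mul_right_cancel₀ hn ?_
  rw [r3] at r2
  linear_combination r2

theorem w_self (n : ℕ) : w n n = 1 := by simp [w]

theorem LA_zero : LA n 0 = B (n + 1) 0 := by
  simp only [LA, B, v_zero]
  push_cast
  ring

theorem LA_succ (h : k ≤ n) : LA n (k + 1) = B (n + 1) (k + 1) - B (n + 1) k := by
  have hk : (k : ℚ) ≤ n := by exact_mod_cast h
  have d : (n : ℚ) + 1 - k ≠ 0 := by linarith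
  have d' : (n : ℚ) + k + 2 ≠ 0 := by positivity
  have d1 : (n : ℚ) + 1 ≠ 0 := by positivity
  rw [LA, B, B, v_eq, v_eq, v_eq, v_eq, rel_ttwo h, rel_wtwo h, rel_tzero (n := n) (k := k),
    rel_wzero (n := n) (k := k), rel_tleft h, rel_wleft h]
  push_cast
  generalize t (n + 1) (k + 1) = T
  generalize w (n + 1) (k + 1) = W
  field_simp
  ring

theorem LA_top : LA n (n + 2) = B (n + 1) (n + 2) - B (n + 1) (n + 1) := by
  have d : (n : ℚ) + 2 ≠ 0 := by positivity
  rw [LA, B, B, v_eq_zero (show n + 1 < n + 2 by omega), v_eq_zero (show n < n + 2 by omega),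
    v_eq, v_eq, w_self, w_self, rel_ttop]
  push_cast
  generalize t (n + 1) (n + 1) = T
  field_simp
  ring

end

theorem sum_LA (n : ℕ) : ∑ k ∈ range (n + 3), LA n k = 0 := by
  rw [sum_eq (Z := B (n + 1)) LA_zero]
  · rw [B, v_eq_zero (show n + 1 < n + 2 by omega)]
    ring
  · intro k hk
    rcases Nat.lt_or_ge k (n + 1) with h | h
    · exact LA_succ (by omega)
    · obtain rfl : k = n + 1 := by omega
      exact LA_top

theorem a_eq (n m : ℕ) (h : n + 1 ≤ m) : a n = ∑ k ∈ range m, v n k := by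
  rw [a]
  refine sum_subset (range_subset_range.mpr h) fun k _ hk => ?_
  rw [mem_range, not_lt] at hk
  exact v_eq_zero (by omega)

theorem b_eq (n m : ℕ) (h : n + 1 ≤ m) : b n = ∑ k ∈ range m, v n k * c n k := by
  rw [b]
  refine sum_subset (range_subset_range.mpr h) fun k _ hk => ?_
  rw [mem_range, not_lt] at hk
  rw [v_eq_zero (by omega), zero_mul]

theorem isRec_a : IsRec a := by
  intro n
  have h := sum_LA n
  simp only [LA] at h
  rw [sum_sub_distrib, sum_sub_distrib, ← mul_sum, ← mul_sum, ← mul_sum,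
    ← a_eq (n + 2) (n + 3) le_rfl, ← a_eq (n + 1) (n + 3) (by omega),
    ← a_eq n (n + 3) (by omega)] at h
  linear_combination h

/-! ### The recursion for the numerators -/

theorem LB_zero (n : ℕ) : LB n 0 = A (n + 1) 0 := by
  have h1 := c_succ_left (Nat.zero_le n)
  have h2 := c_succ_left (Nat.zero_le (n + 1))
  rw [t_zero] at h1 h2
  rw [neg_one_pow_succ] at h2
  push_cast at h1 h2
  rw [pow_zero, sub_zero, mul_one, mul_one] at h1 h2
  have d1 : (n : ℚ) + 1 ≠ 0 := by positivity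
  have d2 : (n : ℚ) + 2 ≠ 0 := by positivity
  have d2' : (n : ℚ) + 1 + 1 ≠ 0 := by positivity
  have e1 : c n 0 = c (n + 1) 0 - 2 * (-1) ^ n / (((n : ℚ) + 1) * ((n : ℚ) + 1)) := by
    linear_combination -h1
  have e2 : c (n + 2) 0 = c (n + 1) 0 + 2 * -(-1) ^ n / (((n : ℚ) + 1 + 1) * ((n : ℚ) + 1 + 1)) := by
    linear_combination h2
  rw [LB, A, B, v_zero, v_zero, v_zero, e1, e2]
  push_cast
  generalize c (n + 1) 0 = C
  generalize (-1 : ℚ) ^ n = r
  field_simp
  ring

theorem low {n k : ℕ} (h : k ≤ n) : v n (k + 1) * c n (k + 1) =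
    v n (k + 1) * c (n + 1) (k + 1) +
      2 * (-1) ^ n * (-1) ^ k * w (n + 1) (k + 1) * ((n : ℚ) - k) /
        (((n : ℚ) + 1) ^ 2 * ((n : ℚ) + k + 2)) := by
  rcases Nat.lt_or_ge k n with h1 | h1
  · have h2 := c_succ_left (n := n) (k := k + 1) h1
    rw [neg_one_pow_succ] at h2
    push_cast at h2
    rw [show (n : ℚ) + 1 - (k + 1) = n - k by ring] at h2
    have hk : (k : ℚ) + 1 ≤ n := by exact_mod_cast h1
    have hT : t (n + 1) (k + 1) ≠ 0 := (t_pos (by omega)).ne'
    have d1 : (n : ℚ) + 1 ≠ 0 := by positivity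
    have d2 : (n : ℚ) + k + 2 ≠ 0 := by positivity
    have d3 : (n : ℚ) - k ≠ 0 := by linarith
    have e1 : c n (k + 1) = c (n + 1) (k + 1) -
        2 * (-1) ^ n * -(-1) ^ k / (((n : ℚ) + 1) * ((n : ℚ) - k) * t (n + 1) (k + 1)) := by
      linear_combination -h2
    rw [e1, v_eq, rel_tzero (n := n) (k := k), rel_wzero (n := n) (k := k)]
    generalize t (n + 1) (k + 1) = T at hT ⊢
    generalize w (n + 1) (k + 1) = W
    generalize c (n + 1) (k + 1) = C
    generalize (-1 : ℚ) ^ k = s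
    generalize (-1 : ℚ) ^ n = r
    field_simp
    ring
  · obtain rfl : k = n := le_antisymm h h1
    rw [v_eq_zero (Nat.lt_succ_self k)]
    ring

theorem LB_succ {n k : ℕ} (h : k ≤ n) : LB n (k + 1) = A (n + 1) (k + 1) - A (n + 1) k := by
  have hk : (k : ℚ) ≤ n := by exact_mod_cast h
  have d : (n : ℚ) + 1 - k ≠ 0 := by linarith
  have d' : (n : ℚ) + k + 2 ≠ 0 := by positivity
  have d1 : (n : ℚ) + 1 ≠ 0 := by positivity
  have d2 : (n : ℚ) + 2 ≠ 0 := by positivity
  have d3 : (k : ℚ) + 1 ≠ 0 := by positivity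
  have d4 : (n : ℚ) + k + 3 ≠ 0 := by positivity
  have hT : t (n + 1) (k + 1) ≠ 0 := (t_pos (by omega)).ne'
  have h1 := c_succ_left (n := n + 1) (k := k + 1) (by omega)
  have h2 := c_succ_right (n + 1) k
  rw [neg_one_pow_succ, neg_one_pow_succ] at h1
  rw [neg_one_pow_succ] at h2
  push_cast at h1
  rw [show (n : ℚ) + 1 + 1 = n + 2 by ring, show (n : ℚ) + 2 - (k + 1) = n + 1 - k by ring] at h1
  have e1 : c (n + 2) (k + 1) = c (n + 1) (k + 1) +
      2 * -(-1) ^ n * -(-1) ^ k / (((n : ℚ) + 2) * ((n : ℚ) + 1 - k) * t (n + 2) (k + 1)) := by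
    linear_combination h1
  rw [LB, low h, e1, h2, A, A, B, B, h2, neg_one_pow_succ, neg_one_pow_succ, v_eq, v_eq, v_eq,
    v_eq, rel_ttwo h, rel_wtwo h, rel_tzero (n := n) (k := k), rel_wzero (n := n) (k := k),
    rel_tleft h, rel_wleft h]
  push_cast
  generalize t (n + 1) (k + 1) = T at hT ⊢
  generalize w (n + 1) (k + 1) = W
  generalize c (n + 1) k = C
  generalize (-1 : ℚ) ^ k = s
  generalize (-1 : ℚ) ^ n = r
  field_simp
  ring

theorem LB_top (n : ℕ) : LB n (n + 2) = A (n + 1) (n + 2) - A (n + 1) (n + 1) := by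
  have d1 : (n : ℚ) + 1 ≠ 0 := by positivity
  have d2 : (n : ℚ) + 2 ≠ 0 := by positivity
  have d3 : 2 * (n : ℚ) + 3 ≠ 0 := by positivity
  have hT : t (n + 1) (n + 1) ≠ 0 := (t_pos le_rfl).ne'
  have r1 := t_succ_left (n + 1) (n + 1)
  push_cast at r1
  have r3 : t (n + 2) (n + 1) = (2 * (n : ℚ) + 3) * t (n + 1) (n + 1) := by linear_combination r1
  have h1 := c_succ_left (n := n + 1) (k := n + 1) le_rfl
  have h2 := c_succ_right (n + 2) (n + 1)
  have hs : (-1 : ℚ) ^ (n + 2) = (-1) ^ n := by rw [pow_add]; norm_num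
  rw [hs, neg_one_pow_succ] at h2
  rw [neg_one_pow_succ] at h1
  push_cast at h1 h2
  rw [show (n : ℚ) + 1 + 1 = n + 2 by ring, show (n : ℚ) + 2 - (n + 1) = 1 by ring, mul_one] at h1
  rw [show (n : ℚ) + 1 + 1 = n + 2 by ring, show n + 1 + 1 = n + 2 by ring] at h2
  have e1 : c (n + 2) (n + 1) = c (n + 1) (n + 1) +
      2 * -(-1) ^ n * -(-1) ^ n / (((n : ℚ) + 2) * t (n + 2) (n + 1)) := by
    linear_combination h1
  rw [LB, v_eq_zero (show n + 1 < n + 2 by omega), v_eq_zero (show n < n + 2 by omega), h2, e1, r3,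
    A, A, B, B, v_eq_zero (show n + 1 < n + 2 by omega), w_eq_zero (show n + 1 < n + 2 by omega),
    v_eq, v_eq, w_self, w_self, neg_one_pow_succ, rel_ttop]
  push_cast
  generalize t (n + 1) (n + 1) = T at hT ⊢
  generalize c (n + 1) (n + 1) = C
  generalize (-1 : ℚ) ^ n = r
  field_simp
  ring

theorem sum_LB (n : ℕ) : ∑ k ∈ range (n + 3), LB n k = 0 := by
  rw [sum_eq (Z := A (n + 1)) (LB_zero n)]
  · rw [A, B, v_eq_zero (show n + 1 < n + 2 by omega), w_eq_zero (show n + 1 < n + 2 by omega)]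
    ring
  · intro k hk
    rcases Nat.lt_or_ge k (n + 1) with h | h
    · exact LB_succ (by omega)
    · obtain rfl : k = n + 1 := by omega
      exact LB_top n

theorem isRec_b : IsRec b := by
  intro n
  have h := sum_LB n
  simp only [LB] at h
  rw [sum_sub_distrib, sum_sub_distrib, ← mul_sum, ← mul_sum, ← mul_sum,
    ← b_eq (n + 2) (n + 3) le_rfl, ← b_eq (n + 1) (n + 3) (by omega),
    ← b_eq n (n + 3) (by omega)] at h
  linear_combination h

/-- **Apéry's recursion** for the numerators and for the denominators. -/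
theorem recStmt : RecStmt := ⟨isRec_a, isRec_b⟩

end Fermat.Agent.Cor.AperyPi
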