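import Fermat.Agent.Corollaries.Apery.Defs

/-!
# Apéry's recursion

The certificates (Zagier, Cohen; van der Poorten, *A proof that Euler missed*):
`B(n, k) = 4 (2n + 1) (k (2k + 1) - (2n + 1)²) t(n, k)²` and
`A(n, k) = B(n, k) c(n, k) - 5 (2n + 1) (-1)^k k t(n, k) / (n (n + 1))`.
-/

set_option autoImplicit false

open Finset

namespace Fermat.Agent.Cor.Apery

/-! ### The numbers `t` -/

theorem t_zero (n : ℕ) : t n 0 = 1 := by simp [t]

theorem t_eq_zero {n k : ℕ} (h : n < k) : t n k = 0 := by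
  rw [t, Nat.choose_eq_zero_of_lt h, Nat.cast_zero, zero_mul]

theorem t_pos {n k : ℕ} (h : k ≤ n) : 0 < t n k := by
  have h1 : 0 < n.choose k := Nat.choose_pos h
  have h2 : 0 < (n + k).choose k := Nat.choose_pos (by omega)
  have h1' : (0 : ℚ) < n.choose k := by exact_mod_cast h1
  have h2' : (0 : ℚ) < (n + k).choose k := by exact_mod_cast h2
  exact mul_pos h1' h2'

theorem t_succ_left (n k : ℕ) : ((n : ℚ) + 1 - k) * t (n + 1) k = ((n : ℚ) + 1 + k) * t n k := by
  rcases lt_or_ge (n + 1) k with h | h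
  · rw [t_eq_zero h, t_eq_zero (by omega), mul_zero, mul_zero]
  · have h1 := Nat.choose_mul_succ_eq n k
    have h2 := Nat.choose_mul_succ_eq (n + k) k
    have e1 : (n.choose k : ℚ) * (n + 1) = ((n + 1).choose k : ℚ) * ((n : ℚ) + 1 - k) := by
      have := congrArg (Nat.cast : ℕ → ℚ) h1
      push_cast [Nat.cast_sub h] at this
      exact this
    have e2 : ((n + k).choose k : ℚ) * (n + k + 1) =
        ((n + 1 + k).choose k : ℚ) * ((n : ℚ) + 1) := by
      have h3 : n + k + 1 - k = n + 1 := by omega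
      rw [h3, show n + k + 1 = n + 1 + k by omega] at h2
      have := congrArg (Nat.cast : ℕ → ℚ) h2
      push_cast at this
      linear_combination this
    have hn : (n : ℚ) + 1 ≠ 0 := by positivity
    rw [t, t]
    refine mul_left_cancel₀ hn ?_
    calc ((n : ℚ) + 1) * (((n : ℚ) + 1 - k) *
          (((n + 1).choose k : ℚ) * ((n + 1 + k).choose k : ℚ)))
        = (((n + 1).choose k : ℚ) * ((n : ℚ) + 1 - k)) *
          (((n + 1 + k).choose k : ℚ) * ((n : ℚ) + 1)) := by ring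
      _ = ((n.choose k : ℚ) * (n + 1)) * (((n + k).choose k : ℚ) * (n + k + 1)) := by
          rw [← e1, ← e2]
      _ = _ := by ring

theorem t_succ_right (n k : ℕ) :
    ((k : ℚ) + 1) ^ 2 * t n (k + 1) = ((n : ℚ) - k) * (n + k + 1) * t n k := by
  rcases lt_or_ge n k with h | h
  · rw [t_eq_zero h, t_eq_zero (by omega), mul_zero, mul_zero]
  · have h1 := Nat.choose_succ_right_eq n k
    have h2 := Nat.add_one_mul_choose_eq (n + k) k
    have e1 : (n.choose (k + 1) : ℚ) * (k + 1) = (n.choose k : ℚ) * ((n : ℚ) - k) := by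
      have := congrArg (Nat.cast : ℕ → ℚ) h1
      push_cast [Nat.cast_sub h] at this
      exact this
    have e2 : ((n : ℚ) + k + 1) * ((n + k).choose k : ℚ) =
        ((n + (k + 1)).choose (k + 1) : ℚ) * (k + 1) := by
      have := congrArg (Nat.cast : ℕ → ℚ) h2
      push_cast at this
      exact this
    rw [t, t]
    calc ((k : ℚ) + 1) ^ 2 * ((n.choose (k + 1) : ℚ) * ((n + (k + 1)).choose (k + 1) : ℚ))
        = ((n.choose (k + 1) : ℚ) * (k + 1)) *
          (((n + (k + 1)).choose (k + 1) : ℚ) * (k + 1)) := by ring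
      _ = ((n.choose k : ℚ) * ((n : ℚ) - k)) * (((n : ℚ) + k + 1) * ((n + k).choose k : ℚ)) := by
          rw [e1, ← e2]
      _ = _ := by ring

/-! ### The differences of `c` -/

theorem c_succ_right (n k : ℕ) :
    c n (k + 1) = c n k + (-1) ^ k / (2 * ((k : ℚ) + 1) ^ 3 * t n (k + 1)) := by
  rw [c, c, sum_range_succ, add_assoc]

theorem c_succ_left {n k : ℕ} (h : k ≤ n) : c (n + 1) k - c n k =
    (-1) ^ k / (((n : ℚ) + 1) ^ 2 * ((n : ℚ) + 1 - k) * t (n + 1) k) := by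
  induction k with
  | zero =>
    rw [c, c, sum_range_succ, t_zero]
    simp only [range_zero, sum_empty, add_zero, pow_zero, Nat.cast_zero, sub_zero, mul_one]
    rw [add_sub_cancel_left, ← pow_succ]
  | succ k ih =>
    have ih' := ih (by omega)
    have hk : (k : ℚ) + 1 ≤ n := by exact_mod_cast h
    have hk0 : (0 : ℚ) ≤ k := Nat.cast_nonneg k
    have r1 := t_succ_left n (k + 1)
    have r2 := t_succ_right (n + 1) k
    push_cast at r1 r2
    have hT : t (n + 1) (k + 1) ≠ 0 := (t_pos (by omega)).ne'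
    have d1 : (n : ℚ) + 1 + (k + 1) ≠ 0 := by positivity
    have d2 : (n : ℚ) + 1 - k ≠ 0 := by linarith
    have d3 : (n : ℚ) - k ≠ 0 := by linarith
    have d4 : (k : ℚ) + 1 ≠ 0 := by positivity
    have d5 : (n : ℚ) + 1 ≠ 0 := by positivity
    have d6 : (n : ℚ) + 1 + k + 1 ≠ 0 := by positivity
    have e1 : t n (k + 1) = ((n : ℚ) - k) / ((n : ℚ) + k + 2) * t (n + 1) (k + 1) := by
      rw [div_mul_eq_mul_div, eq_div_iff (by positivity)]
      linear_combination -r1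
    have e2 : t (n + 1) k = ((k : ℚ) + 1) ^ 2 / (((n : ℚ) + 1 - k) * ((n : ℚ) + k + 2)) *
        t (n + 1) (k + 1) := by
      rw [div_mul_eq_mul_div, eq_div_iff (mul_ne_zero d2 (by positivity))]
      linear_combination -r2
    have d7 : (n : ℚ) + k + 2 ≠ 0 := by positivity
    have d8 : (n : ℚ) + 1 - (k + 1) ≠ 0 := by
      intro h0
      apply d3
      linarith
    have hs : (-1 : ℚ) ^ (k + 1) = -(-1) ^ k := by
      rw [pow_succ]
      ring
    rw [c_succ_right, c_succ_right, e1, hs]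
    have : c (n + 1) k = c n k + (-1) ^ k / (((n : ℚ) + 1) ^ 2 * ((n : ℚ) + 1 - k) * t (n + 1) k) := by
      linear_combination ih'
    rw [this, e2]
    push_cast
    generalize t (n + 1) (k + 1) = T at hT ⊢
    generalize (-1 : ℚ) ^ k = s
    field_simp
    ring

/-! ### The certificates -/

/-- `B(n, k)` (`x = n`) -/
def B (n k : ℕ) : ℚ := 4 * (2 * (n : ℚ) + 1) * (k * (2 * k + 1) - (2 * (n : ℚ) + 1) ^ 2) * t n k ^ 2

/-- `A(n, k)` -/
def A (n k : ℕ) : ℚ := B n k * c n k - 5 * (2 * (n : ℚ) + 1) * (-1) ^ k * k * t n k / (n * (n + 1))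

/-- the left hand side of the recursion for `t²` -/
def LA (n k : ℕ) : ℚ := ((n : ℚ) + 2) ^ 3 * t (n + 2) k ^ 2 -
  (34 * ((n : ℚ) + 1) ^ 3 + 51 * ((n : ℚ) + 1) ^ 2 + 27 * ((n : ℚ) + 1) + 5) * t (n + 1) k ^ 2 +
    ((n : ℚ) + 1) ^ 3 * t n k ^ 2

/-- the left hand side of the recursion for `t² c` -/
def LB (n k : ℕ) : ℚ := ((n : ℚ) + 2) ^ 3 * (t (n + 2) k ^ 2 * c (n + 2) k) -
  (34 * ((n : ℚ) + 1) ^ 3 + 51 * ((n : ℚ) + 1) ^ 2 + 27 * ((n : ℚ) + 1) + 5) *
    (t (n + 1) k ^ 2 * c (n + 1) k) + ((n : ℚ) + 1) ^ 3 * (t n k ^ 2 * c n k)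

section

variable {n k : ℕ}

/-- the relations, `T = t (n + 1) (k + 1)`, `k ≤ n` -/
theorem rel_two (h : k ≤ n) : t (n + 2) (k + 1) =
    ((n : ℚ) + k + 3) / ((n : ℚ) + 1 - k) * t (n + 1) (k + 1) := by
  have r1 := t_succ_left (n + 1) (k + 1)
  push_cast at r1
  have hk : (k : ℚ) ≤ n := by exact_mod_cast h
  have d : (n : ℚ) + 1 - k ≠ 0 := by linarith
  rw [div_mul_eq_mul_div, eq_div_iff d]
  linear_combination r1

theorem rel_zero : t n (k + 1) = ((n : ℚ) - k) / ((n : ℚ) + k + 2) * t (n + 1) (k + 1) := by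
  have r1 := t_succ_left n (k + 1)
  push_cast at r1
  rw [div_mul_eq_mul_div, eq_div_iff (by positivity)]
  linear_combination -r1

theorem rel_left (h : k ≤ n) : t (n + 1) k =
    ((k : ℚ) + 1) ^ 2 / (((n : ℚ) + 1 - k) * ((n : ℚ) + k + 2)) * t (n + 1) (k + 1) := by
  have r2 := t_succ_right (n + 1) k
  push_cast at r2
  have hk : (k : ℚ) ≤ n := by exact_mod_cast h
  have d : (n : ℚ) + 1 - k ≠ 0 := by linarith
  have d' : (n : ℚ) + k + 2 ≠ 0 := by positivity
  rw [div_mul_eq_mul_div, eq_div_iff (mul_ne_zero d d')]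
  linear_combination -r2

theorem rel_top : t (n + 2) (n + 2) = 2 * (2 * (n : ℚ) + 3) / ((n : ℚ) + 2) * t (n + 1) (n + 1) := by
  have r1 := t_succ_left (n + 1) (n + 1)
  have r2 := t_succ_right (n + 2) (n + 1)
  push_cast at r1 r2
  have r3 : t (n + 2) (n + 1) = (2 * (n : ℚ) + 3) * t (n + 1) (n + 1) := by linear_combination r1
  rw [div_mul_eq_mul_div, eq_div_iff (by positivity)]
  have hn : (n : ℚ) + 2 ≠ 0 := by positivity
  refine mul_right_cancel₀ hn ?_
  rw [r3] at r2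
  linear_combination r2

theorem LA_zero : LA n 0 = B (n + 1) 0 := by
  simp only [LA, B, t_zero]
  push_cast
  ring

theorem LA_succ (h : k ≤ n) : LA n (k + 1) = B (n + 1) (k + 1) - B (n + 1) k := by
  have hk : (k : ℚ) ≤ n := by exact_mod_cast h
  have d : (n : ℚ) + 1 - k ≠ 0 := by linarith
  have d' : (n : ℚ) + k + 2 ≠ 0 := by positivity
  rw [LA, B, B, rel_two h, rel_zero (n := n) (k := k), rel_left h]
  push_cast
  generalize t (n + 1) (k + 1) = T
  field_simp
  ring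

theorem LA_top : LA n (n + 2) = B (n + 1) (n + 2) - B (n + 1) (n + 1) := by
  rw [LA, B, B, t_eq_zero (show n + 1 < n + 2 by omega), t_eq_zero (show n < n + 2 by omega),
    rel_top]
  push_cast
  generalize t (n + 1) (n + 1) = T
  field_simp
  ring

end

/-- Telescoping sums. -/
theorem sum_eq {L Z : ℕ → ℚ} {m : ℕ} (h0 : L 0 = Z 0) (h : ∀ k < m, L (k + 1) = Z (k + 1) - Z k) :
    ∑ k ∈ range (m + 1), L k = Z m := by
  induction m with
  | zero => simpa using h0
  | succ m ih =>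
    rw [sum_range_succ, ih fun k hk => h k (by omega), h m (by omega)]
    ring

theorem sum_LA (n : ℕ) : ∑ k ∈ range (n + 3), LA n k = 0 := by
  rw [sum_eq (Z := B (n + 1)) LA_zero]
  · rw [B, t_eq_zero (by omega)]
    ring
  · intro k hk
    rcases Nat.lt_or_ge k (n + 1) with h | h
    · exact LA_succ (by omega)
    · obtain rfl : k = n + 1 := by omega
      exact LA_top

theorem a_eq (n m : ℕ) (h : n + 1 ≤ m) : a n = ∑ k ∈ range m, t n k ^ 2 := by
  rw [a]
  refine sum_subset (range_subset_range.mpr h) fun k _ hk => ?_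
  rw [mem_range, not_lt] at hk
  rw [t_eq_zero (by omega)]
  ring

theorem b_eq (n m : ℕ) (h : n + 1 ≤ m) : b n = ∑ k ∈ range m, t n k ^ 2 * c n k := by
  rw [b]
  refine sum_subset (range_subset_range.mpr h) fun k _ hk => ?_
  rw [mem_range, not_lt] at hk
  rw [t_eq_zero (by omega)]
  ring

theorem isRec_a : IsRec a := by
  intro n
  have h := sum_LA n
  simp only [LA] at h
  rw [sum_add_distrib, sum_sub_distrib, ← mul_sum, ← mul_sum, ← mul_sum,
    ← a_eq (n + 2) (n + 3) le_rfl, ← a_eq (n + 1) (n + 3) (by omega),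
    ← a_eq n (n + 3) (by omega)] at h
  linear_combination h

/-! ### The recursion for the numerators -/

theorem neg_one_pow_succ (k : ℕ) : (-1 : ℚ) ^ (k + 1) = -(-1) ^ k := by
  rw [pow_succ]
  ring

theorem LB_zero (n : ℕ) : LB n 0 = A (n + 1) 0 := by
  have h1 := c_succ_left (Nat.zero_le n)
  have h2 := c_succ_left (Nat.zero_le (n + 1))
  rw [t_zero] at h1 h2
  have e1 : c n 0 = c (n + 1) 0 - 1 / ((n : ℚ) + 1) ^ 3 := by
    have : (1 : ℚ) / ((n : ℚ) + 1) ^ 3 =
        (-1) ^ 0 / (((n : ℚ) + 1) ^ 2 * ((n : ℚ) + 1 - (0 : ℕ)) * 1) := by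
      push_cast
      rw [pow_zero, sub_zero, mul_one, ← pow_succ]
    rw [this, ← h1]
    ring
  have e2 : c (n + 2) 0 = c (n + 1) 0 + 1 / ((n : ℚ) + 2) ^ 3 := by
    have : (1 : ℚ) / ((n : ℚ) + 2) ^ 3 =
        (-1) ^ 0 / ((((n + 1 : ℕ) : ℚ) + 1) ^ 2 * (((n + 1 : ℕ) : ℚ) + 1 - (0 : ℕ)) * 1) := by
      push_cast
      rw [pow_zero, sub_zero, mul_one, ← pow_succ]
      ring
    rw [this, ← h2]
    ring
  rw [LB, A, B, t_zero, t_zero, t_zero, e1, e2]
  push_cast
  have d1 : (n : ℚ) + 1 ≠ 0 := by positivity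
  have d2 : (n : ℚ) + 2 ≠ 0 := by positivity
  generalize c (n + 1) 0 = C
  field_simp
  ring

theorem low {n k : ℕ} (h : k ≤ n) : t n (k + 1) ^ 2 * c n (k + 1) =
    t n (k + 1) ^ 2 * c (n + 1) (k + 1) +
      (-1) ^ k * t (n + 1) (k + 1) * ((n : ℚ) - k) / (((n : ℚ) + 1) ^ 2 * ((n : ℚ) + k + 2) ^ 2) := by
  rcases Nat.lt_or_ge k n with h1 | h1
  · have h2 := c_succ_left (n := n) (k := k + 1) h1
    rw [neg_one_pow_succ] at h2
    have hk : (k : ℚ) + 1 ≤ n := by exact_mod_cast h1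
    have hT : t (n + 1) (k + 1) ≠ 0 := (t_pos (by omega)).ne'
    have d1 : (n : ℚ) + 1 ≠ 0 := by positivity
    have d2 : (n : ℚ) + k + 2 ≠ 0 := by positivity
    have d3 : (n : ℚ) - k ≠ 0 := by linarith
    have e1 : c n (k + 1) = c (n + 1) (k + 1) +
        (-1) ^ k / (((n : ℚ) + 1) ^ 2 * ((n : ℚ) - k) * t (n + 1) (k + 1)) := by
      have : (-1 : ℚ) ^ k / (((n : ℚ) + 1) ^ 2 * ((n : ℚ) - k) * t (n + 1) (k + 1)) =
          -(-(-1) ^ k / (((n : ℚ) + 1) ^ 2 * ((n : ℚ) + 1 - ((k + 1 : ℕ) : ℚ)) *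
            t (n + 1) (k + 1))) := by
        push_cast
        rw [show (n : ℚ) + 1 - (k + 1) = n - k by ring]
        ring
      rw [this, ← h2]
      ring
    rw [e1, rel_zero (n := n) (k := k)]
    generalize t (n + 1) (k + 1) = T at hT ⊢
    generalize c (n + 1) (k + 1) = C
    generalize (-1 : ℚ) ^ k = s
    field_simp
  · obtain rfl : k = n := le_antisymm h h1
    rw [t_eq_zero (Nat.lt_succ_self k)]
    ring

theorem LB_succ {n k : ℕ} (h : k ≤ n) : LB n (k + 1) = A (n + 1) (k + 1) - A (n + 1) k := by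
  have hk : (k : ℚ) ≤ n := by exact_mod_cast h
  have d : (n : ℚ) + 1 - k ≠ 0 := by linarith
  have d' : (n : ℚ) + k + 2 ≠ 0 := by positivity
  have d1 : (n : ℚ) + 1 ≠ 0 := by positivity
  have d2 : (n : ℚ) + 2 ≠ 0 := by positivity
  have d3 : (k : ℚ) + 1 ≠ 0 := by positivity
  have d4 : (n : ℚ) + k + 3 ≠ 0 := by positivity
  have hT : t (n + 1) (k + 1) ≠ 0 := (t_pos (by omega)).ne'
  have h1 := c_succ_left (n := n + 1) (k := k + 1) (by omega)
  have h2 := c_succ_right (n + 1) k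
  rw [neg_one_pow_succ] at h1
  have e1 : c (n + 2) (k + 1) = c (n + 1) (k + 1) -
      (-1) ^ k / (((n : ℚ) + 2) ^ 2 * ((n : ℚ) + 1 - k) * t (n + 2) (k + 1)) := by
    have : (-1 : ℚ) ^ k / (((n : ℚ) + 2) ^ 2 * ((n : ℚ) + 1 - k) * t (n + 2) (k + 1)) =
        -(-(-1) ^ k / ((((n + 1 : ℕ) : ℚ) + 1) ^ 2 * (((n + 1 : ℕ) : ℚ) + 1 - ((k + 1 : ℕ) : ℚ)) *
          t (n + 1 + 1) (k + 1))) := by
      push_cast
      rw [show (n : ℚ) + 1 + 1 = n + 2 by ring, show (n : ℚ) + 2 - (k + 1) = n + 1 - k by ring]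
      ring
    rw [this, ← h1]
    ring
  have e3 : t (n + 2) (k + 1) ≠ 0 := (t_pos (by omega)).ne'
  rw [LB, low h, e1, h2, A, A, B, B, h2, neg_one_pow_succ, rel_two h, rel_zero (n := n) (k := k),
    rel_left h]
  push_cast
  generalize t (n + 1) (k + 1) = T at hT ⊢
  generalize c (n + 1) k = C
  generalize (-1 : ℚ) ^ k = s
  field_simp
  ring

theorem LB_top (n : ℕ) : LB n (n + 2) = A (n + 1) (n + 2) - A (n + 1) (n + 1) := by
  have d1 : (n : ℚ) + 1 ≠ 0 := by positivity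
  have d2 : (n : ℚ) + 2 ≠ 0 := by positivity
  have d3 : 2 * (n : ℚ) + 3 ≠ 0 := by positivity
  have hT : t (n + 1) (n + 1) ≠ 0 := (t_pos le_rfl).ne'
  have r1 := t_succ_left (n + 1) (n + 1)
  push_cast at r1
  have r3 : t (n + 2) (n + 1) = (2 * (n : ℚ) + 3) * t (n + 1) (n + 1) := by linear_combination r1
  have h1 := c_succ_left (n := n + 1) (k := n + 1) le_rfl
  have h2 := c_succ_right (n + 2) (n + 1)
  have e1 : c (n + 2) (n + 1) = c (n + 1) (n + 1) -
      (-1) ^ n / (((n : ℚ) + 2) ^ 2 * t (n + 2) (n + 1)) := by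
    rw [neg_one_pow_succ] at h1
    have : (-1 : ℚ) ^ n / (((n : ℚ) + 2) ^ 2 * t (n + 2) (n + 1)) =
        -(-(-1) ^ n / ((((n + 1 : ℕ) : ℚ) + 1) ^ 2 * (((n + 1 : ℕ) : ℚ) + 1 - ((n + 1 : ℕ) : ℚ)) *
          t (n + 1 + 1) (n + 1))) := by
      push_cast
      rw [show (n : ℚ) + 1 + 1 = n + 2 by ring, show (n : ℚ) + 2 - (n + 1) = 1 by ring, mul_one]
      ring
    rw [this, ← h1]
    ring
  rw [LB, t_eq_zero (show n + 1 < n + 2 by omega), t_eq_zero (show n < n + 2 by omega), h2, e1, r3,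
    rel_top, A, A, B, B, t_eq_zero (show n + 1 < n + 2 by omega), neg_one_pow_succ]
  push_cast
  generalize t (n + 1) (n + 1) = T at hT ⊢
  generalize c (n + 1) (n + 1) = C
  generalize (-1 : ℚ) ^ n = s
  field_simp
  ring

theorem sum_LB (n : ℕ) : ∑ k ∈ range (n + 3), LB n k = 0 := by
  rw [sum_eq (Z := A (n + 1)) (LB_zero n)]
  · rw [A, B, t_eq_zero (show n + 1 < n + 2 by omega)]
    ring
  · intro k hk
    rcases Nat.lt_or_ge k (n + 1) with h | h
    · exact LB_succ (by omega)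
    · obtain rfl : k = n + 1 := by omega
      exact LB_top n

theorem isRec_b : IsRec b := by
  intro n
  have h := sum_LB n
  simp only [LB] at h
  rw [sum_add_distrib, sum_sub_distrib, ← mul_sum, ← mul_sum, ← mul_sum,
    ← b_eq (n + 2) (n + 3) le_rfl, ← b_eq (n + 1) (n + 3) (by omega),
    ← b_eq n (n + 3) (by omega)] at h
  linear_combination h

/-- **Apéry's recursion** for the numerators and for the denominators. -/
theorem recStmt : RecStmt := ⟨isRec_a, isRec_b⟩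

end Fermat.Agent.Cor.Apery
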